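import Mathlib

/-!
# The Legendre line, the Hesse line and the cyclic cover at the cusp

Each cover is given by `x ↦ j = num / den`. Over `0` and `1728` all multiplicities are divisible
by `3` and `2`; the element `h` becomes a unit in the integral closure of `P[j]`.
-/

set_option autoImplicit false

noncomputable section

open Polynomial

namespace FLTA.Smooth.Purity

variable (P : Type*) [CommRing P]

/-- Numerator of `j` on the Legendre line. -/
def legNum : P[X] := 256 * (X ^ 2 - X + 1) ^ 3

/-- Denominator of `j` on the Legendre line. -/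
def legDen : P[X] := (X * (X - 1)) ^ 2

/-- The inverted element on the Legendre line. -/
def legH : P[X] := X * (X - 1)

/-- Numerator of `j` on the Hesse line. -/
def hesNum : P[X] := X ^ 3 * (X ^ 3 - 24) ^ 3

/-- Denominator of `j` on the Hesse line, which is also the inverted element. -/
def hesDen : P[X] := X ^ 3 - 27

/-- The inverted element near the cusp: the complement of `j = 1728`. -/
def cuspH (N : ℕ) : P[X] := 1 - 1728 * X ^ N

variable {P} {Q : Type*} [CommRing Q] (φ : P →+* Q)

@[simp] theorem map_legNum : (legNum P).map φ = legNum Q := by simp [legNum]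
@[simp] theorem map_legDen : (legDen P).map φ = legDen Q := by simp [legDen]
@[simp] theorem map_legH : (legH P).map φ = legH Q := by simp [legH]
@[simp] theorem map_hesNum : (hesNum P).map φ = hesNum Q := by simp [hesNum]
@[simp] theorem map_hesDen : (hesDen P).map φ = hesDen Q := by simp [hesDen]
@[simp] theorem map_cuspH (N : ℕ) : (cuspH P N).map φ = cuspH Q N := by simp [cuspH]

theorem legNum_eq_cube : legNum P = 256 * (X ^ 2 - X + 1) ^ 3 := rfl

theorem legNum_sub : legNum P - 1728 * legDen P = 64 * ((X + 1) * (X - 2) * (2 * X - 1)) ^ 2 := by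
  simp only [legNum, legDen]; ring

theorem hesNum_eq_cube : hesNum P = (X * (X ^ 3 - 24)) ^ 3 := by
  simp only [hesNum]; ring

theorem hesNum_sub : hesNum P - 1728 * hesDen P = (X ^ 6 - 36 * X ^ 3 + 216) ^ 2 := by
  simp only [hesNum, hesDen]; ring

/-- The polynomial whose root is `x`, over `P ∋ j`. -/
def legPoly (j : P) : P[X] := legNum P - C j * legDen P

/-- The polynomial whose root is `x`, over `P ∋ j`. -/
def hesPoly (j : P) : P[X] := hesNum P - C j * hesDen P

theorem natDegree_legPoly [Nontrivial P] {u : P} (hu : 256 * u = 1) (j : P) :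
    (C u * legPoly j).Monic ∧ (C u * legPoly j).natDegree = 6 := by
  have h256 : (256 : P[X]) = C (256 : P) := (map_ofNat C 256).symm
  have e : C u * legPoly j =
      X ^ 6 + (-3 * X ^ 5 + C (6 - u * j) * X ^ 4 + C (2 * (u * j) - 7) * X ^ 3
        + C (6 - u * j) * X ^ 2 - 3 * X + 1) := by
    have h1 : C u * (256 : P[X]) = 1 := by rw [h256, ← map_mul, mul_comm, hu, map_one]
    simp only [legPoly, legNum, legDen, map_sub, map_mul, map_ofNat]
    linear_combination (X ^ 2 - X + 1) ^ 3 * h1
  have hdeg : (-3 * X ^ 5 + C (6 - u * j) * X ^ 4 + C (2 * (u * j) - 7) * X ^ 3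
      + C (6 - u * j) * X ^ 2 - 3 * X + 1 : P[X]).degree < 6 := by
    refine lt_of_le_of_lt (degree_le_of_natDegree_le (n := 5) ?_) (by norm_num)
    compute_degree
  constructor
  · rw [e]; exact monic_X_pow_add hdeg
  · rw [e, natDegree_add_eq_left_of_degree_lt, natDegree_X_pow]
    simpa using hdeg

theorem natDegree_hesPoly [Nontrivial P] (j : P) :
    (hesPoly j).Monic ∧ (hesPoly j).natDegree = 12 := by
  have e : hesPoly j = X ^ 12 + (-72 * X ^ 9 + 1728 * X ^ 6 - 13824 * X ^ 3
      - C j * X ^ 3 + 27 * C j) := by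
    simp only [hesPoly, hesNum, hesDen]; ring
  have hdeg : (-72 * X ^ 9 + 1728 * X ^ 6 - 13824 * X ^ 3
      - C j * X ^ 3 + 27 * C j : P[X]).degree < 12 := by
    refine lt_of_le_of_lt (degree_le_of_natDegree_le (n := 9) ?_) (by norm_num)
    compute_degree
  constructor
  · rw [e]; exact monic_X_pow_add hdeg
  · rw [e, natDegree_add_eq_left_of_degree_lt, natDegree_X_pow]
    simpa using hdeg

theorem exists_inv_legH {u : P} (hu : 256 * u = 1) (j : P) :
    ∃ w : P[X], legPoly j ∣ legH P * w - 1 := by
  refine ⟨C (u * j) * legH P - legH P ^ 2 - 3 * legH P - 3, -C u, ?_⟩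
  have h1 : C u * (256 : P[X]) = 1 := by rw [← map_ofNat C 256, ← map_mul, mul_comm, hu, map_one]
  simp only [legPoly, legNum, legDen, legH, map_mul]
  linear_combination (X ^ 2 - X + 1 : P[X]) ^ 3 * h1

theorem exists_inv_hesDen {u : P} (hu : 729 * u = 1) (j : P) :
    ∃ w : P[X], hesPoly j ∣ hesDen P * w - 1 := by
  refine ⟨C u * (C j - hesDen P ^ 3 - 36 * hesDen P ^ 2 - 270 * hesDen P - 756), -C u, ?_⟩
  have h1 : C u * (729 : P[X]) = 1 := by rw [← map_ofNat C 729, ← map_mul, mul_comm, hu, map_one]
  simp only [hesPoly, hesNum, hesDen]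
  linear_combination h1

theorem legWronskian :
    derivative (legNum P) * legDen P - legNum P * derivative (legDen P) =
      256 * (X ^ 2 - X + 1) ^ 2 * (2 * X - 1) * legH P * (legH P - 2) := by
  simp only [legNum, legDen, legH, derivative_mul, derivative_pow, derivative_sub, derivative_add,
    derivative_X, derivative_one, derivative_ofNat, map_ofNat]
  simp only [Nat.cast_ofNat, map_ofNat]
  ring

theorem hesWronskian :
    derivative (hesNum P) * hesDen P - hesNum P * derivative (hesDen P) =
      9 * X ^ 2 * (X ^ 3 - 24) ^ 2 * (X ^ 6 - 36 * X ^ 3 + 216) := by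
  simp only [hesNum, hesDen, derivative_mul, derivative_pow, derivative_sub, derivative_X,
    derivative_ofNat, map_ofNat, mul_one, sub_zero]
  simp only [Nat.cast_ofNat, map_ofNat]
  ring

/-- Separability of the Legendre cover over a field of characteristic different from `2`. -/
theorem legWronskian_ne_zero {k : Type*} [Field k] (h2 : (2 : k) ≠ 0) :
    derivative (legNum k) * legDen k - legNum k * derivative (legDen k) ≠ 0 := by
  rw [legWronskian, ← map_ofNat C 256, legH]
  have h256 : (256 : k) ≠ 0 := by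
    rw [show (256 : k) = 2 ^ 8 by norm_num]; exact pow_ne_zero _ h2
  have a : (X ^ 2 - X + 1 : k[X]) ≠ 0 := fun h => by
    simpa using congrArg (eval 0) h
  have b : (2 * X - 1 : k[X]) ≠ 0 := fun h => by simpa using congrArg (eval 0) h
  have c : (X * (X - 1) : k[X]) ≠ 0 := mul_ne_zero X_ne_zero (X_sub_C_ne_zero 1)
  have d : (X * (X - 1) - 2 : k[X]) ≠ 0 := fun h => h2 (by simpa using congrArg (eval 0) h)
  simp only [mul_ne_zero_iff, C_ne_zero, pow_ne_zero_iff two_ne_zero]
  exact ⟨⟨⟨⟨h256, a⟩, b⟩, mul_ne_zero_iff.mp c⟩, d⟩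

/-- Separability of the Hesse cover over a field of characteristic different from `3`. -/
theorem hesWronskian_ne_zero {k : Type*} [Field k] (h3 : (3 : k) ≠ 0) :
    derivative (hesNum k) * hesDen k - hesNum k * derivative (hesDen k) ≠ 0 := by
  rw [hesWronskian, ← map_ofNat C 9]
  have h9 : (9 : k) ≠ 0 := by
    rw [show (9 : k) = 3 ^ 2 by norm_num]; exact pow_ne_zero _ h3
  have a : (X ^ 3 - 24 : k[X]) ≠ 0 := by
    rw [← map_ofNat C 24]; exact X_pow_sub_C_ne_zero (by norm_num) _
  have b : (X ^ 6 - 36 * X ^ 3 + 216 : k[X]) ≠ 0 := fun h => by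
    have := congrArg (fun p => coeff p 6) h
    rw [show (36 : k[X]) = C 36 from (map_ofNat C 36).symm,
      show (216 : k[X]) = C 216 from (map_ofNat C 216).symm] at this
    simp [coeff_X_pow, coeff_C_mul] at this
  simp only [mul_ne_zero_iff, C_ne_zero, pow_ne_zero_iff two_ne_zero]
  exact ⟨⟨⟨h9, X_ne_zero⟩, a⟩, b⟩

end FLTA.Smooth.Purity
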