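import Fermat.Agent.Smooth.Purity.SeriesTools
import Fermat.Agent.Bridge.Degree
import Fermat.Agent.Dim.LevelOne
import Fermat.Prelude.Def_ModularCurve_IgusaScheme

/-!
# Branches of the function field of `X₀(N)` in complex Laurent series

`branch_mem_range`: if an algebra of functions on `ℍ` containing `j` and the translates of
`j (d τ)` maps to `ℂ((u))`, then every embedding of the function field extending the image of `j`
takes its values in `ℂ((u))`.
-/

set_option autoImplicit false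

noncomputable section

open Polynomial ModularCurve ModularCurve.IgusaScheme UpperHalfPlane TensorProduct ModularForm
  EisensteinSeries
open scoped MatrixGroups Manifold Topology

namespace FLTA.Smooth.Purity

/-! ### Relations among `q`-expansions over `ℂ` hold under every embedding -/

section Extend

variable {F : Type*} [Field F] [CharZero F] {E : Type*} [Field E] [Algebra ℂ E]

/-- The `ℂ`-linear extension `ℂ ⊗ F → E` of an embedding. -/
def extendC (β : F →+* E) : ℂ ⊗[ℚ] F →ₐ[ℂ] E :=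
  letI : Algebra ℚ E := ((algebraMap ℂ E).comp (algebraMap ℚ ℂ)).toAlgebra
  haveI : IsScalarTower ℚ ℂ E := IsScalarTower.of_algebraMap_eq' rfl
  Algebra.TensorProduct.lift (Algebra.ofId ℂ E)
    { β with
      commutes' := fun r => RingHom.congr_fun
        (Subsingleton.elim (β.comp (algebraMap ℚ F)) (algebraMap ℚ E)) r }
    (fun _ _ => Commute.all _ _)

theorem extendC_tmul (β : F →+* E) (a : ℂ) (f : F) :
    extendC β (a ⊗ₜ f) = algebraMap ℂ E a * β f := rfl

theorem extendC_eval₂ (β : F →+* E) (a b : F) (P : ℂ[X][X]) :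
    extendC β (P.eval₂ (aeval ((1 : ℂ) ⊗ₜ[ℚ] a)).toRingHom ((1 : ℂ) ⊗ₜ[ℚ] b)) =
      P.eval₂ (aeval (β a)).toRingHom (β b) := by
  rw [← AlgHom.coe_toRingHom, Polynomial.hom_eval₂]
  have h : ∀ f : F, extendC β ((1 : ℂ) ⊗ₜ[ℚ] f) = β f := fun f => by
    rw [extendC_tmul, map_one, one_mul]
  rw [AlgHom.coe_toRingHom, h]
  congr 1
  refine Polynomial.ringHom_ext (fun c => ?_) ?_
  · simp only [RingHom.comp_apply, AlgHom.toRingHom_eq_coe, RingHom.coe_coe, aeval_C,
      AlgHom.commutes]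
  · simp only [RingHom.comp_apply, AlgHom.toRingHom_eq_coe, RingHom.coe_coe, aeval_X, h]

variable (γ : F →+* LaurentSeries ℚ)

theorem extendC_coeffEmb_injective :
    Function.Injective (extendC ((coeffEmb ℂ).comp γ)) := by
  rw [injective_iff_map_eq_zero]
  intro x hx
  let B := Module.Basis.ofVectorSpace ℚ ℂ
  obtain ⟨c, rfl⟩ := TensorProduct.eq_repr_basis_left B x
  suffices ∀ i ∈ c.support, c i = 0 by
    exact Finset.sum_eq_zero fun i hi => by simp [this i hi]
  intro i hi
  apply γ.injective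
  rw [map_zero]
  ext n
  have h1 : ∑ a ∈ c.support, ((γ (c a)).coeff n) • B a = 0 := by
    have h2 := congrArg (fun s => HahnSeries.coeff s n) hx
    simp only [Finsupp.sum, map_sum, extendC_tmul, HahnSeries.coeff_sum, HahnSeries.coeff_zero,
      algebraMap_laurentSeries_eq_single, HahnSeries.coeff_single_zero_mul, RingHom.comp_apply,
      coeffEmb_coeff] at h2
    rw [← h2]
    exact Finset.sum_congr rfl fun a _ => by rw [Algebra.smul_def, mul_comm]
  simpa using linearIndependent_iff'.mp B.linearIndependent c.support _ h1 i hi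

/-- A polynomial relation over `ℂ` between expansions holds under every embedding. -/
theorem eval₂_eq_zero_of_coeffEmb (β : F →+* E) (a b : F) (P : ℂ[X][X])
    (h : P.eval₂ (aeval (coeffEmb ℂ (γ a))).toRingHom (coeffEmb ℂ (γ b)) = 0) :
    P.eval₂ (aeval (β a)).toRingHom (β b) = 0 := by
  have h0 : P.eval₂ (aeval ((1 : ℂ) ⊗ₜ[ℚ] a)).toRingHom ((1 : ℂ) ⊗ₜ[ℚ] b) = 0 := by
    apply extendC_coeffEmb_injective γ
    rw [map_zero, extendC_eval₂]
    exact h
  rw [← extendC_eval₂, h0, map_zero]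

end Extend

/-! ### Branches -/

variable (N : ℕ) [NeZero N]

/-- **Branches.** Let `A` be an algebra of functions on `ℍ` containing `j` and all `F ∘ g` for
`F` modular of level `N` and `g ∈ SL(2, ℤ)`, with a map `Λ` to `ℂ((u))`. Every embedding `β` of the
function field with `β j = Λ j` has `β (j (d τ))` in `ℂ((u))`. -/
theorem branch_mem_range (A : Subalgebra ℂ (ℍ → ℂ)) (hjA : Bridge.jInv ∈ A)
    (hA : ∀ F ∈ Bridge.ModHol N, ∀ g : SL(2, ℤ), (fun τ : ℍ => F (g • τ)) ∈ A)
    (Λ : A →ₐ[ℂ] LaurentSeries ℂ) {Ω : Type*} [Field Ω] [Algebra ℂ Ω]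
    (emb : LaurentSeries ℂ →ₐ[ℂ] Ω) (β : ↥(modularFunctionFieldFull N) →+* Ω)
    (hj : β (jFull N) = emb (Λ ⟨_, hjA⟩)) {d : ℕ} [NeZero d] (hd : d ∣ N) :
    β ⟨qExpand ℚ d jq, jqd_mem_full N hd⟩ ∈ Set.range emb := by
  classical
  set F : Bridge.ModHol N := Bridge.jAt N d hd
  obtain ⟨P, hPm, -, hP⟩ := Bridge.exists_monic_eval_eq_prod N F.2
  haveI : Fintype (SL(2, ℤ) ⧸ CongruenceSubgroup.Gamma0 N) := Fintype.ofFinite _
  simp only [finprod_eq_prod_of_fintype] at hP
  let jA : A := ⟨_, hjA⟩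
  let fA : SL(2, ℤ) ⧸ CongruenceSubgroup.Gamma0 N → A := fun c =>
    ⟨_, hA _ F.2 c.out⁻¹⟩
  -- the identity of polynomials over `A`
  have hprod : P.map (aeval jA).toRingHom = ∏ c, (X - Polynomial.C (fA c)) := by
    ext n τ
    let evτ : A →+* ℂ := (Pi.evalRingHom (fun _ : ℍ => ℂ) τ).comp A.val.toRingHom
    have h1 : (P.map (aeval jA).toRingHom).map evτ =
        (∏ c, (X - Polynomial.C (fA c))).map evτ := by
      rw [Polynomial.map_map, Polynomial.map_prod]
      simp only [Polynomial.map_sub, Polynomial.map_X, Polynomial.map_C]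
      rw [show evτ.comp (aeval jA).toRingHom = Polynomial.evalRingHom (Bridge.jInv τ) from
        Polynomial.ringHom_ext (fun c => by simp [evτ]) (by simp [evτ, jA]), hP τ]
      rfl
    simpa [evτ] using congrArg (fun q => q.coeff n) h1
  -- the relation among `q`-expansions
  have hrel : P.eval₂ (aeval (Bridge.jMod N)).toRingHom F = 0 := by
    ext τ
    let evτ : Bridge.ModHol N →+* ℂ :=
      (Pi.evalRingHom (fun _ : ℍ => ℂ) τ).comp (Bridge.ModHol N).val.toRingHom
    show evτ _ = 0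
    rw [Polynomial.hom_eval₂,
      show evτ.comp (aeval (Bridge.jMod N)).toRingHom = Polynomial.evalRingHom (Bridge.jInv τ) from
        Polynomial.ringHom_ext (fun c => by simp [evτ]) (by simp [evτ]; rfl),
      Polynomial.eval₂_eq_eval_map, hP τ, Polynomial.eval_prod]
    let c₁ : SL(2, ℤ) ⧸ CongruenceSubgroup.Gamma0 N := (1 : SL(2, ℤ))
    refine Finset.prod_eq_zero (Finset.mem_univ c₁) ?_
    have hmem : c₁.out⁻¹ ∈ CongruenceSubgroup.Gamma0 N := by
      have : (QuotientGroup.mk c₁.out : SL(2, ℤ) ⧸ CongruenceSubgroup.Gamma0 N) = c₁ :=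
        Quotient.out_eq c₁
      simpa [c₁] using QuotientGroup.eq.mp this
    have := (Bridge.mem_modHol_iff.mp F.2).2.1 _ hmem τ
    rw [Polynomial.eval_sub, Polynomial.eval_X, Polynomial.eval_C, sub_eq_zero]
    exact this.symm
  have hq : P.eval₂ (aeval (coeffEmb ℂ (jFull N : LaurentSeries ℚ))).toRingHom
      (coeffEmb ℂ (qExpand ℚ d jq)) = 0 := by
    have h := congrArg (Bridge.qexp N) hrel
    rw [map_zero, ← AlgHom.coe_toRingHom, Polynomial.hom_eval₂, AlgHom.coe_toRingHom,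
      Bridge.qexp_jAt N hd] at h
    rw [← h]
    congr 1
    ext c
    · simp
    · simp [Bridge.qexp_jMod, coe_jFull]
  have hβ := eval₂_eq_zero_of_coeffEmb
    (algebraMap ↥(modularFunctionFieldFull N) (LaurentSeries ℚ)) β (jFull N)
    ⟨qExpand ℚ d jq, jqd_mem_full N hd⟩ P hq
  have hcomp : ((emb.comp Λ).toRingHom).comp (aeval (R := ℂ) jA).toRingHom =
      (aeval (β (jFull N))).toRingHom := by
    ext c
    · simp
    · simp [hj, jA]
  rw [← hcomp, ← Polynomial.eval₂_map, hprod, Polynomial.eval₂_finsetProd] at hβ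
  obtain ⟨c, -, hc⟩ := Finset.prod_eq_zero_iff.mp hβ
  rw [Polynomial.eval₂_sub, Polynomial.eval₂_X, Polynomial.eval₂_C, sub_eq_zero] at hc
  exact ⟨Λ (fA c), hc.symm⟩

/-! ### Taylor series on `Hol` and the local form of `j` -/

/-- Taylor series at `τ` of holomorphic functions on `ℍ`. -/
def taylorHol (τ : ℍ) : Bridge.Hol →ₐ[ℂ] PowerSeries ℂ where
  toFun F := taylorAt (τ : ℂ) ((F : ℍ → ℂ) ∘ ofComplex)
  map_one' := (taylorAt_const (τ : ℂ) 1).trans (map_one _)
  map_zero' := (taylorAt_const (τ : ℂ) 0).trans (map_zero _)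
  map_mul' F G := taylorAt_mul (Bridge.analyticAt_of_mem_hol F.2 τ)
    (Bridge.analyticAt_of_mem_hol G.2 τ)
  map_add' F G := taylorAt_add (Bridge.analyticAt_of_mem_hol F.2 τ)
    (Bridge.analyticAt_of_mem_hol G.2 τ)
  commutes' c := taylorAt_const (τ : ℂ) c

/-- The possible ramification indices of `j` over `c`. -/
def jIndex (c : ℂ) : ℕ := if c = 0 then 3 else if c = 1728 then 2 else 1

theorem jIndex_ne_zero (c : ℂ) : jIndex c ≠ 0 := by
  unfold jIndex; split_ifs <;> norm_num

theorem analyticAt_modularForm {k : ℤ} (f : ModularForm 𝒮ℒ k) (τ : ℍ) :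
    AnalyticAt ℂ ((f : ℍ → ℂ) ∘ ofComplex) (τ : ℂ) :=
  Bridge.analyticAt_of_mem_hol f.holo' τ

/-- Every `c` is `j τ₀` with `j - c` vanishing to order exactly `jIndex c` at `τ₀`. -/
theorem exists_jInv_local (c : ℂ) :
    ∃ (τ : ℍ) (U : PowerSeries ℂ), PowerSeries.constantCoeff U ≠ 0 ∧
      taylorAt (τ : ℂ) (Bridge.jInv ∘ ofComplex) =
        PowerSeries.C c + PowerSeries.X ^ jIndex c * U := by
  obtain ⟨τ, hτ⟩ := Dim.jH_surjective c
  have hτ' : Bridge.jInv τ = c := hτ
  have hD := ModularForm.discriminant_ne_zero τ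
  have hj : AnalyticAt ℂ (Bridge.jInv ∘ ofComplex) (τ : ℂ) := Bridge.analyticAt_jFun τ.im_pos
  have hsplit : taylorAt (τ : ℂ) (Bridge.jInv ∘ ofComplex) = PowerSeries.C c +
      taylorAt (τ : ℂ) (fun z => Bridge.jInv (ofComplex z) - c) := by
    rw [← taylorAt_const (τ : ℂ) c, ← taylorAt_add analyticAt_const (by exact hj.sub analyticAt_const)]
    congr 1; funext z; simp
  refine ⟨τ, ?_⟩
  suffices ∃ U : PowerSeries ℂ, PowerSeries.constantCoeff U ≠ 0 ∧
      taylorAt (τ : ℂ) (fun z => Bridge.jInv (ofComplex z) - c) =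
        PowerSeries.X ^ jIndex c * U by
    obtain ⟨U, hU, h⟩ := this
    exact ⟨U, hU, by rw [hsplit, h]⟩
  have hΔ : AnalyticAt ℂ (fun z => (ModularForm.discriminant (ofComplex z))⁻¹) (τ : ℂ) :=
    (Bridge.analyticAt_of_mem_hol (ModularFormClass.holo CuspForm.discriminant) τ).inv
      (by simpa using hD)
  have hΔ0 : PowerSeries.constantCoeff
      (taylorAt (τ : ℂ) fun z => (ModularForm.discriminant (ofComplex z))⁻¹) ≠ 0 := by
    rw [constantCoeff_taylorAt]; simpa using hD
  unfold jIndex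
  split_ifs with h0 h1728
  · subst h0
    have h4 : E₄ τ = 0 := by simpa [Bridge.jInv, hD] using hτ'
    obtain ⟨U, hU, hT⟩ := exists_eq_X_mul (f := (E₄ : ℍ → ℂ) ∘ ofComplex) (z₀ := (τ : ℂ))
      (by simpa using h4) (Dim.deriv_E4_ne_zero h4)
    refine ⟨U ^ 3 * taylorAt (τ : ℂ) fun z => (ModularForm.discriminant (ofComplex z))⁻¹,
      by simp [hU, hΔ0], ?_⟩
    have hE := analyticAt_modularForm E₄ τ
    rw [show (fun z => Bridge.jInv (ofComplex z) - 0) =
        (((E₄ : ℍ → ℂ) ∘ ofComplex) * ((E₄ : ℍ → ℂ) ∘ ofComplex) * ((E₄ : ℍ → ℂ) ∘ ofComplex)) *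
          (fun z => (ModularForm.discriminant (ofComplex z))⁻¹) by
        funext z; simp [Bridge.jInv]; ring,
      taylorAt_mul ((hE.mul hE).mul hE) hΔ, taylorAt_mul (hE.mul hE) hE, taylorAt_mul hE hE, hT]
    ring
  · subst h1728
    have key : ∀ w : ℍ, Bridge.jInv w - 1728 = E₆ w ^ 2 / ModularForm.discriminant w := fun w => by
      have hw := ModularForm.discriminant_ne_zero w
      rw [Bridge.jInv, eq_div_iff hw, sub_mul, div_mul_cancel₀ _ hw,
        ModularForm.discriminant_eq_E₄_cube_sub_E₆_sq w]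
      ring
    have h6 : E₆ τ = 0 := by
      have := key τ
      rw [hτ', sub_self, eq_comm, div_eq_zero_iff] at this
      simpa [hD] using this
    obtain ⟨U, hU, hT⟩ := exists_eq_X_mul (f := (E₆ : ℍ → ℂ) ∘ ofComplex) (z₀ := (τ : ℂ))
      (by simpa using h6) (Dim.deriv_E6_ne_zero h6)
    refine ⟨U ^ 2 * taylorAt (τ : ℂ) fun z => (ModularForm.discriminant (ofComplex z))⁻¹,
      by simp [hU, hΔ0], ?_⟩
    have hE := analyticAt_modularForm E₆ τ
    rw [show (fun z => Bridge.jInv (ofComplex z) - 1728) =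
        (((E₆ : ℍ → ℂ) ∘ ofComplex) * ((E₆ : ℍ → ℂ) ∘ ofComplex)) *
          (fun z => (ModularForm.discriminant (ofComplex z))⁻¹) by
        funext z; simp [key]; ring,
      taylorAt_mul (hE.mul hE) hΔ, taylorAt_mul hE hE, hT]
    ring
  · have h4 : E₄ τ ≠ 0 := fun h => h0 (by rw [← hτ']; simp [Bridge.jInv, h])
    have h6 : E₆ τ ≠ 0 := fun h => h1728 (by
      rw [← hτ', Bridge.jInv, div_eq_iff hD, ModularForm.discriminant_eq_E₄_cube_sub_E₆_sq τ, h]
      ring)
    obtain ⟨U, hU, hT⟩ := exists_eq_X_mul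
      (f := fun z => Bridge.jInv (ofComplex z) - c) (z₀ := (τ : ℂ)) (by simp [hτ'])
      (by
        rw [deriv_sub_const]
        exact Dim.deriv_jC_ne_zero τ h4 h6)
    exact ⟨U, hU, by rw [hT, pow_one]⟩

end FLTA.Smooth.Purity
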