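import Fermat.Prelude.Def_ModularCurve_IgusaScheme
import Mathlib.RingTheory.LaurentSeries
import Mathlib.FieldTheory.IntermediateField.Adjoin.Basic
import Mathlib.Analysis.Complex.Basic
import Fermat.Agent.Smooth.Purity.Branches
import Fermat.Prelude.Def_ModularCurve_X0ModL

/-!
# The pullback of `X₀(N)` to a cover of the `j`-line splits in unramified power series

If `x ↦ j = num / den` has multiplicities divisible by `3` over `0` and by `2` over `1728`, then
at every finite point `x₀` the compositum `L` of the function field with `ℚ(x)` has `[L : ℚ(x)]`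
embeddings into `ℂ((u))` with `x ↦ x₀ + u`; likewise at `x = 0` for `x ^ N = 1 / j`.
-/

set_option autoImplicit false

noncomputable section

open Polynomial ModularCurve ModularCurve.IgusaScheme UpperHalfPlane
open scoped MatrixGroups Manifold

namespace FLTA.Smooth.Purity

/-- Evaluation of `p ∈ O[X]` at `x₀ + u`. -/
def evalAt {O : Type*} [CommRing O] (ι : O →+* ℂ) (x₀ : ℂ) : O[X] →+* LaurentSeries ℂ :=
  Polynomial.eval₂RingHom ((HahnSeries.C : ℂ →+* LaurentSeries ℂ).comp ι)
    (HahnSeries.C x₀ + HahnSeries.single 1 1)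

/-- `p ↦ p (x₀ + u)` in `ℂ⟦u⟧`, for rational polynomials. -/
def evalPS (x₀ : ℂ) : ℚ[X] →+* PowerSeries ℂ :=
  Polynomial.eval₂RingHom ((PowerSeries.C).comp (algebraMap ℚ ℂ)) (PowerSeries.C x₀ + PowerSeries.X)

theorem evalAt_eq (x₀ : ℂ) (p : ℚ[X]) :
    evalAt (algebraMap ℚ ℂ) x₀ p = HahnSeries.ofPowerSeries ℤ ℂ (evalPS x₀ p) := by
  rw [evalAt, evalPS, Polynomial.coe_eval₂RingHom, Polynomial.coe_eval₂RingHom,
    Polynomial.hom_eval₂, map_add, HahnSeries.ofPowerSeries_C, HahnSeries.ofPowerSeries_X]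
  congr 1
  ext c
  simp [HahnSeries.ofPowerSeries_C]

theorem constantCoeff_evalPS (x₀ : ℂ) (p : ℚ[X]) :
    PowerSeries.constantCoeff (evalPS x₀ p) = aeval x₀ p := by
  rw [evalPS, Polynomial.coe_eval₂RingHom, Polynomial.hom_eval₂, aeval_def, map_add,
    PowerSeries.constantCoeff_C, PowerSeries.constantCoeff_X, add_zero]
  congr 1

theorem eq_zero_of_eval₂_taylor {x₀ : ℂ} {q : ℂ[X]}
    (h : q.eval₂ (PowerSeries.C : ℂ →+* PowerSeries ℂ) (PowerSeries.C x₀ + PowerSeries.X) = 0) :
    q = 0 := by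
  apply Polynomial.taylor_injective x₀
  rw [map_zero, ← Polynomial.coe_inj, Polynomial.coe_zero, ← h, Polynomial.taylor_apply,
    Polynomial.comp, ← Polynomial.coeToPowerSeries.ringHom_apply, Polynomial.hom_eval₂]
  congr 1
  · ext c; simp
  · simp [add_comm]

theorem evalPS_injective (x₀ : ℂ) : Function.Injective (evalPS x₀) := by
  rw [injective_iff_map_eq_zero]
  intro p hp
  refine (Polynomial.map_eq_zero_iff (algebraMap ℚ ℂ).injective).mp
    (eq_zero_of_eval₂_taylor (x₀ := x₀) ?_)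
  rw [Polynomial.eval₂_map]
  exact hp

theorem evalAt_injective (x₀ : ℂ) : Function.Injective (evalAt (algebraMap ℚ ℂ) x₀) := by
  intro p q h
  rw [evalAt_eq, evalAt_eq] at h
  exact evalPS_injective x₀ (HahnSeries.ofPowerSeries_injective h)

/-- `f = X ^ k * g` with `g 0 ≠ 0`. -/
theorem exists_eq_X_pow_mul {f : PowerSeries ℂ} (hf : f ≠ 0) :
    ∃ (k : ℕ) (g : PowerSeries ℂ), PowerSeries.constantCoeff g ≠ 0 ∧ f = PowerSeries.X ^ k * g := by
  obtain ⟨n, hn⟩ := ENat.ne_top_iff_exists.mp (mt PowerSeries.order_eq_top.mp hf)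
  obtain ⟨g, hg⟩ : PowerSeries.X ^ n ∣ f := PowerSeries.X_pow_dvd_iff.mpr fun m hm =>
    PowerSeries.coeff_of_lt_order m (hn ▸ (by exact_mod_cast hm))
  refine ⟨n, g, fun h0 => ?_, hg⟩
  have h1 := PowerSeries.coeff_order hf
  rw [← hn, ENat.toNat_natCast] at h1
  apply h1
  rw [hg, PowerSeries.coeff_X_pow_mul' g n n, if_pos le_rfl, Nat.sub_self,
    PowerSeries.coeff_zero_eq_constantCoeff, h0]

theorem X_pow_mul_inj {m k : ℕ} {V W : PowerSeries ℂ} (hV : PowerSeries.constantCoeff V ≠ 0)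
    (hW : PowerSeries.constantCoeff W ≠ 0)
    (h : PowerSeries.X ^ m * V = PowerSeries.X ^ k * W) : m = k := by
  rcases lt_trichotomy m k with hlt | heq | hgt
  · exfalso
    have := congrArg (PowerSeries.coeff m) h
    rw [PowerSeries.coeff_X_pow_mul', PowerSeries.coeff_X_pow_mul', if_pos le_rfl,
      if_neg (by omega), Nat.sub_self, PowerSeries.coeff_zero_eq_constantCoeff] at this
    exact hV this
  · exact heq
  · exfalso
    have := congrArg (PowerSeries.coeff k) h
    rw [PowerSeries.coeff_X_pow_mul', PowerSeries.coeff_X_pow_mul', if_neg (by omega),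
      if_pos le_rfl, Nat.sub_self, PowerSeries.coeff_zero_eq_constantCoeff] at this
    exact hW this.symm

/-- The multiplicity of a series which is a unit times an `e`-th power is divisible by `e`. -/
theorem dvd_of_eq_pow_mul {m e : ℕ} (he : e ≠ 0) {V f w : PowerSeries ℂ}
    (hV : PowerSeries.constantCoeff V ≠ 0) (hw : PowerSeries.constantCoeff w ≠ 0)
    (h : PowerSeries.X ^ m * V = f ^ e * w) : e ∣ m := by
  have hne : PowerSeries.X ^ m * V ≠ 0 :=
    mul_ne_zero (pow_ne_zero _ PowerSeries.X_ne_zero) fun h => hV (by simp [h])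
  have hf : f ≠ 0 := fun h0 => hne (by rw [h, h0, zero_pow he, zero_mul])
  obtain ⟨k, g, hg, rfl⟩ := exists_eq_X_pow_mul hf
  have h2 : PowerSeries.X ^ m * V = PowerSeries.X ^ (k * e) * (g ^ e * w) := by
    rw [h, mul_pow, ← pow_mul, mul_assoc]
  exact ⟨k, by rw [X_pow_mul_inj hV (by simp [hg, hw]) h2, mul_comm]⟩

/-- `ℂ⟦u⟧ → ℂ((u))` as an algebra map. -/
def psToLS : PowerSeries ℂ →ₐ[ℂ] LaurentSeries ℂ where
  toRingHom := HahnSeries.ofPowerSeries ℤ ℂ
  commutes' c := by
    show HahnSeries.ofPowerSeries ℤ ℂ (algebraMap ℂ (PowerSeries ℂ) c) = _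
    rw [PowerSeries.algebraMap_eq, algebraMap_laurentSeries_eq_single, HahnSeries.ofPowerSeries_C,
      HahnSeries.C_apply]

theorem psToLS_apply (f : PowerSeries ℂ) : psToLS f = HahnSeries.ofPowerSeries ℤ ℂ f := rfl

/-- Substitution of `S` on Laurent series. -/
def substLS (S : PowerSeries ℂ) (hS : PowerSeries.constantCoeff S = 0) (hS0 : S ≠ 0) :
    LaurentSeries ℂ →ₐ[ℂ] LaurentSeries ℂ :=
  have hg : Function.Injective
      (psToLS.comp (PowerSeries.substAlgHom (PowerSeries.HasSubst.of_constantCoeff_zero' hS))) :=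
    HahnSeries.ofPowerSeries_injective.comp (subst_injective hS hS0)
  { IsFractionRing.lift (A := PowerSeries ℂ) (g := (psToLS.comp
      (PowerSeries.substAlgHom (PowerSeries.HasSubst.of_constantCoeff_zero' hS))).toRingHom) hg with
    commutes' := fun c => by
      show IsFractionRing.lift (A := PowerSeries ℂ) (g := (psToLS.comp
        (PowerSeries.substAlgHom (PowerSeries.HasSubst.of_constantCoeff_zero' hS))).toRingHom) hg _ = _
      have h1 : algebraMap ℂ (LaurentSeries ℂ) c =
          algebraMap (PowerSeries ℂ) (LaurentSeries ℂ) (algebraMap ℂ (PowerSeries ℂ) c) :=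
        (psToLS.commutes c).symm
      rw [h1, IsFractionRing.lift_algebraMap]
      exact ((psToLS.comp (PowerSeries.substAlgHom
        (PowerSeries.HasSubst.of_constantCoeff_zero' hS))).commutes c).trans h1 }

theorem substLS_ofPowerSeries (S : PowerSeries ℂ) (hS : PowerSeries.constantCoeff S = 0)
    (hS0 : S ≠ 0) (f : PowerSeries ℂ) :
    substLS S hS hS0 (HahnSeries.ofPowerSeries ℤ ℂ f) = HahnSeries.ofPowerSeries ℤ ℂ
      (PowerSeries.substAlgHom (PowerSeries.HasSubst.of_constantCoeff_zero' hS) f) :=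
  IsFractionRing.lift_algebraMap (A := PowerSeries ℂ)
    (g := (psToLS.comp
      (PowerSeries.substAlgHom (PowerSeries.HasSubst.of_constantCoeff_zero' hS))).toRingHom)
    (HahnSeries.ofPowerSeries_injective.comp (subst_injective hS hS0)) f

theorem smul_mem_hol {F : ℍ → ℂ} (hF : F ∈ Bridge.Hol) (g : SL(2, ℤ)) :
    (fun τ : ℍ => F (g • τ)) ∈ Bridge.Hol :=
  hF.comp (UpperHalfPlane.mdifferentiable_smul (g := (g : GL (Fin 2) ℝ)) (by simp))

variable {N : ℕ} [NeZero N] {K L : Type*} [Field K] [Field L] [Algebra ℚ[X] K]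
  [IsFractionRing ℚ[X] K] [Algebra K L] [FiniteDimensional K L]

omit [NeZero N] [FiniteDimensional K L] in
theorem charZero_base : CharZero K :=
  charZero_of_injective_ringHom (f := (algebraMap ℚ[X] K).comp Polynomial.C)
    ((IsFractionRing.injective ℚ[X] K).comp Polynomial.C_injective)

/-- `[L : K]` embeddings, once every embedding of the function field with the given image of `j`
takes values in `ℂ((u))`. -/
theorem exists_embeddings_aux (ρ : ↥(modularFunctionFieldFull N) →+* L)
    (hgen : IntermediateField.adjoin K (Set.range ρ) = ⊤) (x₀ : ℂ) (num den : ℚ[X]) (hden : den ≠ 0)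
    (hj : ρ (jFull N) * algebraMap K L (algebraMap ℚ[X] K den) =
      algebraMap K L (algebraMap ℚ[X] K num))
    (A : Subalgebra ℂ (ℍ → ℂ)) (hjA : Bridge.jInv ∈ A)
    (hA : ∀ F ∈ Bridge.ModHol N, ∀ g : SL(2, ℤ), (fun τ : ℍ => F (g • τ)) ∈ A)
    (Λ : A →ₐ[ℂ] LaurentSeries ℂ)
    (hΛ : Λ ⟨_, hjA⟩ * evalAt (algebraMap ℚ ℂ) x₀ den = evalAt (algebraMap ℚ ℂ) x₀ num) :
    ∃ σ : Fin (Module.finrank K L) → (L →+* LaurentSeries ℂ), Function.Injective σ ∧
      ∀ k (p : ℚ[X]), σ k (algebraMap K L (algebraMap ℚ[X] K p)) =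
        evalAt (algebraMap ℚ ℂ) x₀ p := by
  classical
  haveI : CharZero K := charZero_base
  set θ : K →+* LaurentSeries ℂ := IsFractionRing.lift (evalAt_injective x₀) with hθ
  have hθX : ∀ p, θ (algebraMap ℚ[X] K p) = evalAt (algebraMap ℚ ℂ) x₀ p := fun p => by
    simp [hθ, IsFractionRing.lift_algebraMap]
  letI : Algebra K (LaurentSeries ℂ) := θ.toAlgebra
  let Ω := AlgebraicClosure (LaurentSeries ℂ)
  let emb : LaurentSeries ℂ →ₐ[ℂ] Ω := IsScalarTower.toAlgHom ℂ (LaurentSeries ℂ) Ω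
  let embK : LaurentSeries ℂ →ₐ[K] Ω := IsScalarTower.toAlgHom K (LaurentSeries ℂ) Ω
  have hemb : ∀ z, emb z = embK z := fun z => rfl
  have hrange : ∀ (σ : L →ₐ[K] Ω) (z : L), σ z ∈ embK.range := by
    intro σ
    have hj' : σ (ρ (jFull N)) = emb (Λ ⟨_, hjA⟩) := by
      have hne : algebraMap K Ω (algebraMap ℚ[X] K den) ≠ 0 :=
        (map_ne_zero_iff _ (algebraMap K Ω).injective).mpr
          ((map_ne_zero_iff _ (IsFractionRing.injective ℚ[X] K)).mpr hden)
      refine mul_right_cancel₀ hne ?_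
      have h1 := congrArg σ hj
      rw [map_mul, AlgHom.commutes, AlgHom.commutes] at h1
      have hc : ∀ q, algebraMap K Ω (algebraMap ℚ[X] K q) = emb (evalAt (algebraMap ℚ ℂ) x₀ q) :=
        fun q => by rw [hemb, ← hθX]; exact (embK.commutes _).symm
      rw [h1, hc, hc, ← hΛ, map_mul]
    let S : Subfield L := (emb.toRingHom.fieldRange).comap σ.toRingHom
    have hK : ∀ c : K, algebraMap K L c ∈ S := fun c =>
      ⟨algebraMap K (LaurentSeries ℂ) c, by
        show emb _ = σ _
        rw [hemb, AlgHom.commutes, AlgHom.commutes]⟩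
    have hρ : ∀ f, ρ f ∈ S := by
      rintro ⟨y, hy⟩
      induction hy using IntermediateField.adjoin_induction with
      | mem z hz =>
        obtain ⟨d, hd0, hd, rfl⟩ := hz
        haveI := hd0
        obtain ⟨w, hw⟩ := branch_mem_range N A hjA hA Λ emb (σ.toRingHom.comp ρ) hj' hd
        exact ⟨w, hw⟩
      | algebraMap q =>
        have h2 : ρ (q : ↥(modularFunctionFieldFull N)) ∈ S := by
          rw [map_ratCast]; exact SubfieldClass.ratCast_mem S q
        convert h2 using 3
        rw [eq_ratCast]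
        exact (map_ratCast (modularFunctionFieldFull N).val q).symm
      | add y z hy hz h1 h2 =>
        rw [show (⟨y + z, add_mem hy hz⟩ : ↥(modularFunctionFieldFull N)) = ⟨y, hy⟩ + ⟨z, hz⟩
          from rfl, map_add]
        exact add_mem h1 h2
      | inv y hy h1 =>
        rw [show (⟨y⁻¹, inv_mem hy⟩ : ↥(modularFunctionFieldFull N)) = ⟨y, hy⟩⁻¹ from rfl, map_inv₀]
        exact inv_mem h1
      | mul y z hy hz h1 h2 =>
        rw [show (⟨y * z, mul_mem hy hz⟩ : ↥(modularFunctionFieldFull N)) = ⟨y, hy⟩ * ⟨z, hz⟩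
          from rfl, map_mul]
        exact mul_mem h1 h2
    intro z
    have hz : z ∈ IntermediateField.adjoin K (Set.range ρ) := hgen ▸ IntermediateField.mem_top
    have : z ∈ S := by
      induction hz using IntermediateField.adjoin_induction with
      | mem z hz => obtain ⟨f, rfl⟩ := hz; exact hρ f
      | algebraMap c => exact hK c
      | add y z _ _ h1 h2 => exact add_mem h1 h2
      | inv y _ h1 => exact inv_mem h1
      | mul y z _ _ h1 h2 => exact mul_mem h1 h2
    obtain ⟨w, hw⟩ := this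
    exact ⟨w, hw⟩
  have hinj : Function.Injective embK := embK.injective
  let red : (L →ₐ[K] Ω) → (L →ₐ[K] LaurentSeries ℂ) := fun σ =>
    (AlgEquiv.ofInjective embK hinj).symm.toAlgHom.comp (σ.codRestrict embK.range (hrange σ))
  have hred : ∀ σ z, embK (red σ z) = σ z := fun σ z => by
    simp only [red, AlgHom.comp_apply]
    exact congrArg Subtype.val
      ((AlgEquiv.ofInjective embK hinj).apply_symm_apply (σ.codRestrict embK.range (hrange σ) z))
  have hcard : Fintype.card (L →ₐ[K] Ω) = Module.finrank K L := AlgHom.card K L Ω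
  let e := Fintype.equivFinOfCardEq hcard
  refine ⟨fun k => (red (e.symm k)).toRingHom, fun k l hkl => ?_, fun k p => ?_⟩
  · apply e.symm.injective
    ext z
    rw [← hred, ← hred]
    exact congrArg embK (RingHom.congr_fun hkl z)
  · show red (e.symm k) _ = _
    rw [AlgHom.commutes]
    exact hθX p

/-- **Embeddings at a finite point of the cover.** -/
theorem exists_embeddings (ρ : ↥(modularFunctionFieldFull N) →+* L)
    (hgen : IntermediateField.adjoin K (Set.range ρ) = ⊤) (num den : ℚ[X])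
    (hj : ρ (jFull N) * algebraMap K L (algebraMap ℚ[X] K den) =
      algebraMap K L (algebraMap ℚ[X] K num))
    (hnum : num ≠ 0) (hdeg : num.natDegree ≠ den.natDegree)
    (x₀ : ℂ) (hx₀ : aeval x₀ den ≠ 0)
    (h3 : aeval x₀ num = 0 → ∃ (c : ℚ) (a : ℚ[X]), num = C c * a ^ 3)
    (h2 : aeval x₀ (num - 1728 * den) = 0 → ∃ (c : ℚ) (a : ℚ[X]), num - 1728 * den = C c * a ^ 2) :
    ∃ σ : Fin (Module.finrank K L) → (L →+* LaurentSeries ℂ), Function.Injective σ ∧
      ∀ k (p : ℚ[X]), σ k (algebraMap K L (algebraMap ℚ[X] K p)) =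
        evalAt (algebraMap ℚ ℂ) x₀ p := by
  have hden : den ≠ 0 := fun h => hx₀ (by simp [h])
  have hunit : PowerSeries.constantCoeff (evalPS x₀ den) ≠ 0 := by rwa [constantCoeff_evalPS]
  obtain ⟨iden, hiden⟩ : ∃ iden, evalPS x₀ den * iden = 1 :=
    (PowerSeries.isUnit_iff_constantCoeff.mpr (Ne.isUnit hunit)).exists_right_inv
  have hiden0 : PowerSeries.constantCoeff iden ≠ 0 := fun h0 => by
    simpa [h0] using congrArg PowerSeries.constantCoeff hiden
  set j₀ : ℂ := aeval x₀ num / aeval x₀ den with hj₀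
  set D : PowerSeries ℂ := (evalPS x₀ num - PowerSeries.C j₀ * evalPS x₀ den) * iden with hD
  have hDnum : (PowerSeries.C j₀ + D) * evalPS x₀ den = evalPS x₀ num := by
    rw [hD, add_mul, mul_assoc, mul_comm iden, hiden, mul_one, add_sub_cancel]
  have hD0 : PowerSeries.constantCoeff D = 0 := by
    simp [hD, constantCoeff_evalPS, hj₀, hx₀]
  have hDne : D ≠ 0 := by
    intro h0
    rw [h0, add_zero] at hDnum
    have hpoly : num.map (algebraMap ℚ ℂ) - Polynomial.C j₀ * den.map (algebraMap ℚ ℂ) = 0 := by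
      apply eq_zero_of_eval₂_taylor (x₀ := x₀)
      rw [Polynomial.eval₂_sub, Polynomial.eval₂_mul, Polynomial.eval₂_C, Polynomial.eval₂_map,
        Polynomial.eval₂_map, sub_eq_zero]
      exact hDnum.symm
    rw [sub_eq_zero] at hpoly
    rcases eq_or_ne j₀ 0 with h | h
    · rw [h, map_zero, zero_mul, Polynomial.map_eq_zero_iff (algebraMap ℚ ℂ).injective] at hpoly
      exact hnum hpoly
    · apply hdeg
      have := congrArg Polynomial.natDegree hpoly
      rwa [Polynomial.natDegree_C_mul h, Polynomial.natDegree_map, Polynomial.natDegree_map] at this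
  obtain ⟨m, V, hV, hDV⟩ := exists_eq_X_pow_mul hDne
  have hm : m ≠ 0 := by
    rintro rfl
    rw [pow_zero, one_mul] at hDV
    exact hV (hDV ▸ hD0)
  have hem : jIndex j₀ ∣ m := by
    unfold jIndex
    split_ifs with h0 h1728
    · obtain ⟨c, a, hca⟩ := h3 (by simpa [hj₀, hx₀] using h0)
      have hc : c ≠ 0 := fun h => hnum (by rw [hca, h, map_zero, zero_mul])
      refine dvd_of_eq_pow_mul (w := evalPS x₀ (Polynomial.C c) * iden) (f := evalPS x₀ a)
        (by norm_num) hV ?_ ?_
      · simp [constantCoeff_evalPS, hc, hiden0]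
      · rw [← hDV, hD, h0, map_zero, zero_mul, sub_zero, hca, map_mul, map_pow]; ring
    · have h2' : aeval x₀ (num - 1728 * den) = 0 := by
        rw [hj₀, div_eq_iff hx₀] at h1728
        simp [h1728, map_ofNat]
      obtain ⟨c, a, hca⟩ := h2 h2'
      have hc : c ≠ 0 := by
        intro h
        rw [h, map_zero, zero_mul, sub_eq_zero] at hca
        apply hdeg
        rw [hca, ← map_ofNat (Polynomial.C) 1728, Polynomial.natDegree_C_mul (by norm_num)]
      refine dvd_of_eq_pow_mul (w := evalPS x₀ (Polynomial.C c) * iden) (f := evalPS x₀ a)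
        (by norm_num) hV ?_ ?_
      · simp [constantCoeff_evalPS, hc, hiden0]
      · have hca' := congrArg (evalPS x₀) hca
        rw [map_sub, map_mul, map_mul, map_pow, map_ofNat] at hca'
        rw [← hDV, hD, h1728, map_ofNat, hca']; ring
    · exact one_dvd m
  obtain ⟨τ, U, hU, hT⟩ := exists_jInv_local j₀
  obtain ⟨S, hS, hS0, hsub⟩ := exists_subst_eq (jIndex_ne_zero j₀) hm hem U V hU hV
  let hs := PowerSeries.HasSubst.of_constantCoeff_zero' hS
  let Λ : Bridge.Hol →ₐ[ℂ] LaurentSeries ℂ :=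
    psToLS.comp ((PowerSeries.substAlgHom hs).comp (taylorHol τ))
  refine exists_embeddings_aux ρ hgen x₀ num den hden hj Bridge.Hol Bridge.mdifferentiable_jInv
    (fun F hF g => smul_mem_hol (Bridge.mem_modHol_iff.mp hF).1 g) Λ ?_
  rw [evalAt_eq, evalAt_eq, ← hDnum, map_mul, hDV, ← hsub]
  congr 1
  show psToLS (PowerSeries.substAlgHom hs (taylorAt (τ : ℂ) (Bridge.jInv ∘ ofComplex))) = _
  rw [psToLS_apply]
  congr 1
  rw [hT, map_add, PowerSeries.coe_substAlgHom]
  congr 1
  rw [← PowerSeries.coe_substAlgHom hs, ← PowerSeries.algebraMap_eq (R := ℂ), AlgHom.commutes]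

/-- **Embeddings at the cusp** of the cover `x ^ N = 1 / j`. -/
theorem exists_embeddings_cusp (ρ : ↥(modularFunctionFieldFull N) →+* L)
    (hgen : IntermediateField.adjoin K (Set.range ρ) = ⊤)
    (hj : ρ (jFull N) * algebraMap K L (algebraMap ℚ[X] K (X ^ N)) = 1) :
    ∃ σ : Fin (Module.finrank K L) → (L →+* LaurentSeries ℂ), Function.Injective σ ∧
      ∀ k (p : ℚ[X]), σ k (algebraMap K L (algebraMap ℚ[X] K p)) =
        evalAt (algebraMap ℚ ℂ) 0 p := by
  have hj1 : ρ (jFull N) * algebraMap K L (algebraMap ℚ[X] K (X ^ N)) =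
      algebraMap K L (algebraMap ℚ[X] K 1) := by rw [hj, map_one, map_one]
  set J : LaurentSeries ℂ := qExpand ℂ N (coeffEmb ℂ jq) with hJ
  set P : PowerSeries ℂ := jNumQ.map (algebraMap ℚ ℂ) with hP
  set G : LaurentSeries ℂ := qExpand ℂ N (HahnSeries.ofPowerSeries ℤ ℂ P) with hG
  set U : PowerSeries ℂ := PowerSeries.mk fun n => G.coeff n with hU
  have hUG : HahnSeries.ofPowerSeries ℤ ℂ U = G := by
    ext n
    rcases le_or_gt 0 n with hn | hn
    · lift n to ℕ using hn
      rw [HahnSeries.ofPowerSeries_apply_coeff, hU, PowerSeries.coeff_mk]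
    · rw [ofPowerSeries_coeff_of_neg _ hn, hG]
      by_cases hd : (N : ℤ) ∣ n
      · obtain ⟨t, rfl⟩ := hd
        rw [qExpand_coeff_mul, ofPowerSeries_coeff_of_neg]
        by_contra ht
        have : (0 : ℤ) ≤ (N : ℤ) * t := mul_nonneg (by positivity) (not_lt.mp ht)
        omega
      · rw [qExpand_coeff_of_not_dvd N _ hd]
  have hU0 : PowerSeries.constantCoeff U = 1 := by
    rw [← PowerSeries.coeff_zero_eq_constantCoeff, hU, PowerSeries.coeff_mk, Nat.cast_zero, hG,
      ← mul_zero (N : ℤ), qExpand_coeff_mul, show (0 : ℤ) = ((0 : ℕ) : ℤ) from rfl,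
      HahnSeries.ofPowerSeries_apply_coeff, PowerSeries.coeff_zero_eq_constantCoeff, hP,
      ← PowerSeries.coeff_zero_eq_constantCoeff, PowerSeries.coeff_map,
      PowerSeries.coeff_zero_eq_constantCoeff, constantCoeff_jNumQ, map_one]
  obtain ⟨iU, hiU⟩ : ∃ iU, U * iU = 1 :=
    (PowerSeries.isUnit_iff_constantCoeff.mpr (hU0 ▸ isUnit_one)).exists_right_inv
  have hiU0 : PowerSeries.constantCoeff iU ≠ 0 := fun h0 => by
    simpa [h0] using congrArg PowerSeries.constantCoeff hiU
  have hJeq : J * HahnSeries.ofPowerSeries ℤ ℂ (PowerSeries.X ^ N * iU) = 1 := by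
    have h1 : J = HahnSeries.single (-(N : ℤ)) 1 * G := by
      rw [hJ, hG, hP, jq, map_mul, map_mul, coeffEmb, coeffMap_single, map_one,
        coeffMap_ofPowerSeries, qExpand_single, mul_neg_one]
    rw [h1, map_mul, map_pow, HahnSeries.ofPowerSeries_X, ← hUG, HahnSeries.single_pow, one_pow,
      nsmul_eq_mul, mul_one]
    rw [show HahnSeries.single (-(N : ℤ)) (1 : ℂ) * HahnSeries.ofPowerSeries ℤ ℂ U *
        (HahnSeries.single (N : ℤ) (1 : ℂ) * HahnSeries.ofPowerSeries ℤ ℂ iU) =
        (HahnSeries.single (-(N : ℤ)) (1 : ℂ) * HahnSeries.single (N : ℤ) 1) *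
          HahnSeries.ofPowerSeries ℤ ℂ (U * iU) by rw [map_mul]; ring]
    rw [hiU, map_one (HahnSeries.ofPowerSeries ℤ ℂ), mul_one, HahnSeries.single_mul_single, one_mul, neg_add_cancel]
    exact HahnSeries.single_zero_one
  obtain ⟨S, hS, hS0, hsub⟩ := exists_subst_eq (NeZero.ne N) (NeZero.ne N) dvd_rfl iU 1 hiU0
    (by simp)
  let hs := PowerSeries.HasSubst.of_constantCoeff_zero' hS
  let Φ := substLS S hS hS0
  have hΦ : ∀ f, Φ (HahnSeries.ofPowerSeries ℤ ℂ f) =
      HahnSeries.ofPowerSeries ℤ ℂ (PowerSeries.substAlgHom hs f) := substLS_ofPowerSeries S hS hS0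
  have hjA : Bridge.jInv ∈ Bridge.HolInfty N := by
    simpa using Bridge.comp_slash_mem_holInfty N 1 (Bridge.jInv_mem_modHol N)
  refine exists_embeddings_aux ρ hgen 0 1 (X ^ N) (pow_ne_zero _ Polynomial.X_ne_zero) hj1
    (Bridge.HolInfty N) hjA (fun F hF g => Bridge.comp_slash_mem_holInfty N g hF)
    (Φ.comp (Bridge.expansion N)) ?_
  have hexp : Bridge.expansion N ⟨_, hjA⟩ = J := by
    rw [hJ, ← Bridge.qexp_jMod N, ← Bridge.qexpAt_one]
    show _ = Bridge.expansion N _
    congr 1
    ext τ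
    simp [Bridge.modHolToHolInfty, Bridge.jMod]
  rw [AlgHom.comp_apply, hexp, evalAt_eq, evalAt_eq, map_one, map_one]
  have h2 := congrArg Φ hJeq
  rw [map_mul, map_one, hΦ] at h2
  refine Eq.trans ?_ h2
  congr 1
  rw [PowerSeries.coe_substAlgHom, hsub, mul_one, map_pow]
  congr 1
  simp [evalPS]

/-- Restriction of the compatibility to a subring of constants. -/
theorem evalAt_map {O : Type*} [CommRing O] (ι : O →+* ℚ) (x₀ : ℂ) (p : O[X]) :
    evalAt (algebraMap ℚ ℂ) x₀ (p.map ι) = evalAt ((algebraMap ℚ ℂ).comp ι) x₀ p := by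
  simp [evalAt, Polynomial.eval₂_map, RingHom.comp_assoc]

end FLTA.Smooth.Purity
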