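import Fermat.Agent.Smooth.Purity.Defs
import Mathlib.RingTheory.Jacobson.Ideal
import Mathlib.RingTheory.Polynomial.GaussLemma
import Mathlib.RingTheory.Polynomial.UniqueFactorization
import Mathlib.RingTheory.Localization.Ideal
import Mathlib.Algebra.Polynomial.Taylor
import Mathlib.RingTheory.PowerSeries.Inverse
import Mathlib.Analysis.Complex.Polynomial.Basic
import Mathlib.RingTheory.PrincipalIdealDomain

/-!
# The base rings `O[X]_S` used in the purity theorem
-/

set_option autoImplicit false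

noncomputable section

open Polynomial

namespace FLTA.Smooth.Purity

section

variable {O : Type*} [CommRing O] [IsDomain O] {ϖ : O} {h : O[X]}

theorem ne_zero_of_mem_fibreSubmonoid (hϖ : Prime ϖ) (hh : ¬ C ϖ ∣ h) {s : O[X]}
    (hs : s ∈ fibreSubmonoid ϖ h) : ¬ C ϖ ∣ s := by
  obtain ⟨c, i, hc, hd⟩ := hs
  intro hdiv
  have hp : Prime (C ϖ) := prime_C_iff.mpr hϖ
  have h1 : C ϖ ∣ C c * h ^ i := by simpa using dvd_sub hdiv hd
  rcases hp.dvd_or_dvd h1 with h2 | h2
  · exact hp.not_unit (isUnit_of_dvd_unit h2 (isUnit_C.mpr hc))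
  · exact hh (hp.dvd_of_dvd_pow h2)

theorem fibreSubmonoid_le_nonZeroDivisors (hϖ : Prime ϖ) (hh : ¬ C ϖ ∣ h) :
    fibreSubmonoid ϖ h ≤ nonZeroDivisors O[X] := fun s hs =>
  mem_nonZeroDivisors_of_ne_zero fun h0 =>
    ne_zero_of_mem_fibreSubmonoid hϖ hh hs (h0 ▸ dvd_zero _)

theorem self_mem_fibreSubmonoid : h ∈ fibreSubmonoid ϖ h :=
  ⟨1, 1, isUnit_one, by simp⟩

theorem add_mul_mem_fibreSubmonoid {s : O[X]} (hs : s ∈ fibreSubmonoid ϖ h) (p : O[X]) :
    s + C ϖ * p ∈ fibreSubmonoid ϖ h := by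
  obtain ⟨c, i, hc, u, hu⟩ := hs
  exact ⟨c, i, hc, u + p, by linear_combination hu⟩

variable {R : Type*} [CommRing R] [Algebra O[X] R] [IsLocalization (fibreSubmonoid ϖ h) R]

theorem prime_algebraMap_C (hϖ : Prime ϖ) (hh : ¬ C ϖ ∣ h) :
    Prime (algebraMap O[X] R (C ϖ)) := by
  have hp : Prime (C ϖ) := prime_C_iff.mpr hϖ
  have hd : Disjoint (fibreSubmonoid ϖ h : Set O[X]) ↑(Ideal.span {C ϖ}) := by
    rw [Set.disjoint_left]
    intro s hs hs'
    exact ne_zero_of_mem_fibreSubmonoid hϖ hh hs (Ideal.mem_span_singleton.mp hs')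
  have h1 := IsLocalization.isPrime_of_isPrime_disjoint (fibreSubmonoid ϖ h) R _
    ((Ideal.span_singleton_prime hp.ne_zero).mpr hp) hd
  rw [Ideal.map_span, Set.image_singleton] at h1
  refine (Ideal.span_singleton_prime ?_).mp h1
  intro h0
  exact hp.ne_zero (IsLocalization.injective R (fibreSubmonoid_le_nonZeroDivisors hϖ hh)
    (h0.trans (map_zero _).symm))

theorem mem_jacobson_algebraMap_C (h : O[X]) [IsLocalization (fibreSubmonoid ϖ h) R] :
    algebraMap O[X] R (C ϖ) ∈ Ideal.jacobson (⊥ : Ideal R) := by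
  rw [Ideal.mem_jacobson_bot]
  intro y
  obtain ⟨p, s, rfl⟩ := IsLocalization.exists_mk'_eq (fibreSubmonoid ϖ h) y
  have h1 : algebraMap O[X] R (s + C ϖ * p) =
      (algebraMap O[X] R (C ϖ) * IsLocalization.mk' R p s + 1) * algebraMap O[X] R (s : O[X]) := by
    rw [add_mul, mul_assoc, IsLocalization.mk'_spec, map_add, map_mul, one_mul, add_comm]
  have hu := IsLocalization.map_units R (⟨_, add_mul_mem_fibreSubmonoid s.2 p⟩ : fibreSubmonoid ϖ h)
  rw [h1] at hu
  exact isUnit_of_mul_isUnit_left hu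

theorem isPrincipalIdealRing_quotient [IsPrincipalIdealRing O] (h : O[X])
    [IsLocalization (fibreSubmonoid ϖ h) R] (hϖ : Prime ϖ) :
    IsPrincipalIdealRing (R ⧸ Ideal.span {algebraMap O[X] R (C ϖ)}) := by
  haveI : (Ideal.span {ϖ}).IsMaximal :=
    PrincipalIdealRing.isMaximal_of_irreducible hϖ.irreducible
  letI : Field (O ⧸ Ideal.span {ϖ}) := Ideal.Quotient.field _
  set m := mapRingHom (Ideal.Quotient.mk (Ideal.span {ϖ}))
  set g : O[X] →+* R ⧸ Ideal.span {algebraMap O[X] R (C ϖ)} :=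
    (Ideal.Quotient.mk _).comp (algebraMap O[X] R) with hg
  have hker : ∀ p, m p = 0 → g p = 0 := by
    intro p hp
    obtain ⟨u, rfl⟩ : C ϖ ∣ p := by
      rw [C_dvd_iff_dvd_coeff]
      intro i
      rw [← Ideal.mem_span_singleton, ← Ideal.Quotient.eq_zero_iff_mem]
      simpa [m] using congrArg (fun q : (O ⧸ Ideal.span {ϖ})[X] => q.coeff i) hp
    rw [hg, RingHom.comp_apply, map_mul, Ideal.Quotient.eq_zero_iff_mem]
    exact Ideal.mul_mem_right _ _ (Ideal.mem_span_singleton_self _)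
  have hm : Function.Surjective m := map_surjective _ Ideal.Quotient.mk_surjective
  refine ⟨fun I => ?_⟩
  obtain ⟨q, hq⟩ := (IsPrincipalIdealRing.principal ((I.comap g).map m)).principal
  obtain ⟨p, hp, rfl⟩ := (Ideal.mem_map_iff_of_surjective m hm).mp
    (hq.ge (Submodule.mem_span_singleton_self q))
  refine ⟨⟨g p, le_antisymm ?_ ((Submodule.span_singleton_le_iff_mem _ _).mpr hp)⟩⟩
  intro x hx
  obtain ⟨r, rfl⟩ := Ideal.Quotient.mk_surjective x
  obtain ⟨a, s, rfl⟩ := IsLocalization.exists_mk'_eq (fibreSubmonoid ϖ h) r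
  have h1 : g a ∈ I := by
    rw [hg, RingHom.comp_apply, ← IsLocalization.mk'_spec R a s, map_mul]
    exact Ideal.mul_mem_right _ _ hx
  obtain ⟨t, ht⟩ := Submodule.mem_span_singleton.mp
    (hq.le (Ideal.mem_map_of_mem m (show a ∈ I.comap g from h1)))
  obtain ⟨T, rfl⟩ := hm t
  have h2 : g a = g T * g p := by
    rw [← map_mul, ← sub_eq_zero, ← map_sub]
    exact hker _ (by rw [map_sub, map_mul, sub_eq_zero]; exact ht.symm)
  obtain ⟨u, hu⟩ := (IsLocalization.map_units R s).exists_right_inv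
  refine Submodule.mem_span_singleton.mpr ⟨g T * Ideal.Quotient.mk _ u, ?_⟩
  rw [smul_eq_mul, mul_right_comm, ← h2, hg, RingHom.comp_apply, ← map_mul,
    ← IsLocalization.mk'_spec R a s, mul_assoc, hu, mul_one]

theorem exists_factor_not_isUnit [UniqueFactorizationMonoid O[X]] {p : O[X]} (hp0 : p ≠ 0)
    (hp : ¬ IsUnit (algebraMap O[X] R p)) :
    ∃ q, Irreducible q ∧ q ∣ p ∧ ¬ IsUnit (algebraMap O[X] R q) := by
  induction p using UniqueFactorizationMonoid.induction_on_prime with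
  | h₁ => exact absurd rfl hp0
  | h₂ a ha => exact absurd (ha.map _) hp
  | h₃ a q ha0 hq ih =>
    by_cases hqu : IsUnit (algebraMap O[X] R q)
    · obtain ⟨q', h1, h2, h3⟩ := ih ha0 fun hu => hp (by rw [map_mul]; exact hqu.mul hu)
      exact ⟨q', h1, h2.mul_left q, h3⟩
    · exact ⟨q, hq.irreducible, dvd_mul_right q a, hqu⟩

variable {K L : Type*} [Field K] [Field L] [Algebra K L] [Algebra R L]

/-- Above the primes of `R` not containing `ϖ`, the embeddings over complex points give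
splitting data. -/
theorem exists_splitsUnramifiedAt [IsPrincipalIdealRing O] (hϖ : Prime ϖ) (ι : O →+* ℂ)
    (hι : Function.Injective ι)
    (hemb : ∀ x₀ : ℂ, h.eval₂ ι x₀ ≠ 0 →
      ∃ σ : Fin (Module.finrank K L) → (L →+* LaurentSeries ℂ), Function.Injective σ ∧
        ∀ k (p : O[X]), σ k (algebraMap R L (algebraMap O[X] R p)) =
          p.eval₂ ((HahnSeries.C : ℂ →+* LaurentSeries ℂ).comp ι)
            (HahnSeries.C x₀ + HahnSeries.single 1 1))
    {a : R} (ha : ¬ algebraMap O[X] R (C ϖ) ∣ a) (hau : ¬ IsUnit a) :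
    ∃ f : R, f ∣ a ∧ SplitsUnramifiedAt K L f := by
  classical
  obtain ⟨p, s, rfl⟩ := IsLocalization.exists_mk'_eq (fibreSubmonoid ϖ h) a
  have hp0 : p ≠ 0 := by
    rintro rfl
    exact ha (by rw [IsLocalization.mk'_zero]; exact dvd_zero _)
  have hspec := IsLocalization.mk'_spec R p s
  have hpu : ¬ IsUnit (algebraMap O[X] R p) := fun hu =>
    hau (isUnit_of_mul_isUnit_left (hspec ▸ hu))
  obtain ⟨q, hqirr, hqp, hqu⟩ := exists_factor_not_isUnit hp0 hpu
  have hqa : algebraMap O[X] R q ∣ IsLocalization.mk' R p s := by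
    rw [← (IsLocalization.map_units R s).dvd_mul_right, hspec]
    exact map_dvd _ hqp
  -- `q` is not constant
  have hdeg : q.natDegree ≠ 0 := by
    intro h0
    obtain ⟨c, rfl⟩ := natDegree_eq_zero.mp h0
    haveI : (Ideal.span {ϖ}).IsMaximal :=
      PrincipalIdealRing.isMaximal_of_irreducible hϖ.irreducible
    by_cases hc : ϖ ∣ c
    · exact ha ((map_dvd (algebraMap O[X] R) (map_dvd C hc)).trans hqa)
    · obtain ⟨t, m, hm, htm⟩ := Ideal.IsMaximal.exists_inv (x := c)
        ‹(Ideal.span {ϖ}).IsMaximal› (fun hmem => hc (Ideal.mem_span_singleton.mp hmem))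
      obtain ⟨u, rfl⟩ := Ideal.mem_span_singleton.mp hm
      have hmem : C c * C t ∈ fibreSubmonoid ϖ h := by
        refine ⟨1, 0, isUnit_one, -C u, ?_⟩
        have := congrArg (C : O → O[X]) htm
        rw [map_add, map_mul, map_mul, map_one] at this
        rw [map_one]
        linear_combination this
      have h1 := IsLocalization.map_units R (⟨_, hmem⟩ : fibreSubmonoid ϖ h)
      simp only [map_mul] at h1
      exact hqu (isUnit_of_mul_isUnit_left h1)
  -- a complex root of `q`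
  obtain ⟨x₀, hx₀⟩ := Complex.exists_root (f := q.map ι) (by
    rw [degree_map_eq_of_injective hι]
    exact natDegree_pos_iff_degree_pos.mp (Nat.pos_of_ne_zero hdeg))
  rw [IsRoot, eval_map] at hx₀
  have hprim : q.IsPrimitive := hqirr.isPrimitive hdeg
  let ι₀ : FractionRing O →+* ℂ := IsFractionRing.lift (g := ι) hι
  have hι₀ : ι₀.comp (algebraMap O (FractionRing O)) = ι :=
    RingHom.ext fun o => IsFractionRing.lift_algebraMap hι o
  have hqker : ∀ r : O[X], r.eval₂ ι x₀ = 0 → q ∣ r := by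
    intro r hr
    refine hprim.dvd_of_fraction_map_dvd_fraction_map (K := FractionRing O) ?_
    by_contra hnd
    have hq' : Irreducible (q.map (algebraMap O (FractionRing O))) :=
      hprim.irreducible_iff_irreducible_map_fraction_map.mp hqirr
    obtain ⟨A, B, hAB⟩ := (hq'.coprime_iff_not_dvd).mpr hnd
    have h1 := congrArg (eval₂ ι₀ x₀) hAB
    rw [eval₂_add, eval₂_mul, eval₂_mul, eval₂_map, eval₂_map, hι₀, hx₀, hr, mul_zero, mul_zero,
      add_zero, eval₂_one] at h1
    exact zero_ne_one h1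
  have hunit : ∀ t : fibreSubmonoid ϖ h, (t : O[X]).eval₂ ι x₀ ≠ 0 := by
    intro t ht
    exact hqu (isUnit_of_dvd_unit (map_dvd _ (hqker _ ht)) (IsLocalization.map_units R t))
  obtain ⟨σ, hσinj, hσ⟩ := hemb x₀ (hunit ⟨h, self_mem_fibreSubmonoid⟩)
  let φ₀ : O[X] →+* PowerSeries ℂ :=
    eval₂RingHom ((PowerSeries.C (R := ℂ)).comp ι) (PowerSeries.C x₀ + PowerSeries.X)
  have hconst : ∀ r, PowerSeries.constantCoeff (φ₀ r) = r.eval₂ ι x₀ := by
    intro r
    rw [coe_eval₂RingHom, hom_eval₂, ← RingHom.comp_assoc]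
    simp [eval₂_congr, RingHom.ext_iff]
  have hφu : ∀ t : fibreSubmonoid ϖ h, IsUnit (φ₀ t) := fun t => by
    rw [PowerSeries.isUnit_iff_constantCoeff, hconst, isUnit_iff_ne_zero]
    exact hunit t
  let φ : R →+* PowerSeries ℂ := IsLocalization.lift hφu
  have hφ : ∀ r, φ (algebraMap O[X] R r) = φ₀ r := IsLocalization.lift_eq hφu
  refine ⟨algebraMap O[X] R q, hqa, ℂ, inferInstance, inferInstance, φ, σ, hσinj, ?_, ?_, ?_, ?_⟩
  · intro k
    refine RingHom.congr_fun (f := (σ k).comp (algebraMap R L))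
      (g := (HahnSeries.ofPowerSeries ℤ ℂ).comp φ) ?_
    refine IsLocalization.ringHom_ext (fibreSubmonoid ϖ h) (RingHom.ext fun r => ?_)
    simp only [RingHom.comp_apply, hφ, hσ k r, φ₀, coe_eval₂RingHom, hom_eval₂, map_add,
      HahnSeries.ofPowerSeries_C, HahnSeries.ofPowerSeries_X, ← RingHom.comp_assoc]
    congr 1
    exact RingHom.ext fun o => (HahnSeries.ofPowerSeries_C _).symm
  · intro b hb
    obtain ⟨r, t, rfl⟩ := IsLocalization.exists_mk'_eq (fibreSubmonoid ϖ h) b
    rw [← (IsLocalization.map_units R t).dvd_mul_right, IsLocalization.mk'_spec]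
    refine map_dvd _ (hqker r ?_)
    rw [← hconst, ← hφ, ← IsLocalization.mk'_spec R r t, map_mul, map_mul, hb, zero_mul]
  · rw [hφ, hconst, hx₀]
  · haveI : CharZero O := (RingHom.charZero_iff hι).mpr inferInstance
    have htaylor : φ₀ q = ((taylor x₀ (q.map ι) : ℂ[X]) : PowerSeries ℂ) := by
      have he : φ₀ = ((coeToPowerSeries.ringHom (R := ℂ)).comp (taylorAlgHom x₀).toRingHom).comp
          (mapRingHom ι) := by
        refine Polynomial.ringHom_ext (fun o => ?_) ?_
        · simp [φ₀]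
        · simp [φ₀, add_comm]
      exact RingHom.congr_fun he q
    rw [hφ, htaylor, coeff_coe, taylor_coeff_one, derivative_map, eval_map]
    intro h0
    have hd : derivative q ≠ 0 := fun hd0 => hdeg (natDegree_eq_zero_of_derivative_eq_zero hd0)
    exact absurd (natDegree_le_of_dvd (hqker _ h0) hd) (not_le.mpr (natDegree_derivative_lt hdeg))

end

end FLTA.Smooth.Purity
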