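import Mathlib.RingTheory.DedekindDomain.IntegralClosure
import Mathlib.LinearAlgebra.FreeModule.PID
import Mathlib.RingTheory.Nakayama
import Mathlib.Algebra.Module.Torsion.Basic
import Mathlib.RingTheory.Jacobson.Ideal
import Mathlib.RingTheory.Localization.Module
import Mathlib.RingTheory.Localization.NormTrace
import Mathlib.RingTheory.Filtration
import Mathlib.RingTheory.Polynomial.ScaleRoots
import Mathlib.FieldTheory.Minpoly.IsIntegrallyClosed

/-!
# Freeness of the integral closure over a regular base of dimension two
-/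

set_option autoImplicit false

noncomputable section

open Polynomial

namespace FLTA.Smooth.Purity

/-- In a domain, if `ϖ` is prime, `¬ ϖ ∣ a` and both `a ^ n` and `ϖ ^ n` times a fraction are
integral, then the fraction is integral. -/
theorem mem_range_of_pow_mul_mem {R K : Type*} [CommRing R] [IsDomain R] [Field K] [Algebra R K]
    [IsFractionRing R K] {ϖ a : R} (hϖ : Prime ϖ) (ha : ¬ ϖ ∣ a) {n : ℕ} {z : K}
    (h1 : algebraMap R K a ^ n * z ∈ Set.range (algebraMap R K))
    (h2 : algebraMap R K ϖ ^ n * z ∈ Set.range (algebraMap R K)) :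
    z ∈ Set.range (algebraMap R K) := by
  obtain ⟨s, hs⟩ := h1
  obtain ⟨r, hr⟩ := h2
  have h : a ^ n * r = ϖ ^ n * s := by
    apply IsFractionRing.injective R K
    rw [map_mul, map_mul, map_pow, map_pow, hr, hs]
    ring
  obtain ⟨t, rfl⟩ : ϖ ^ n ∣ r := hϖ.pow_dvd_of_dvd_mul_left n
    (fun hd => ha (hϖ.dvd_of_dvd_pow hd)) ⟨s, h⟩
  refine ⟨t, ?_⟩
  have hne : algebraMap R K ϖ ^ n ≠ 0 :=
    pow_ne_zero _ (by simpa using hϖ.ne_zero)
  apply mul_left_cancel₀ hne
  rw [← hr, map_mul, map_pow]

section

variable {R : Type*} (K : Type*) {L : Type*} [CommRing R] [IsDomain R] [Field K] [Algebra R K]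
  [IsFractionRing R K] [Field L] [Algebra K L] [Algebra R L] [IsScalarTower R K L]
  [FiniteDimensional K L] [IsIntegrallyClosed R]

/-- If `s * x` is integral, then `s ^ (deg - i)` times the `i`-th coefficient of the minimal
polynomial of `x` is integral. -/
theorem pow_mul_coeff_minpoly_mem {s : R} (hs : s ≠ 0) {x : L}
    (hsx : IsIntegral R (algebraMap R L s * x)) (i : ℕ) (hi : i ≤ (minpoly K x).natDegree) :
    algebraMap R K s ^ ((minpoly K x).natDegree - i) * (minpoly K x).coeff i ∈
      Set.range (algebraMap R K) := by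
  have hxK : IsIntegral K x := Algebra.IsIntegral.isIntegral x
  have hs0 : algebraMap R K s ≠ 0 := by simpa using hs
  have hsL : algebraMap R L s = algebraMap K L (algebraMap R K s) :=
    IsScalarTower.algebraMap_apply R K L s
  have hyK : IsIntegral K (algebraMap R L s * x) := Algebra.IsIntegral.isIntegral _
  have key : minpoly K (algebraMap R L s * x) =
      (minpoly K x).scaleRoots (algebraMap R K s) := by
    have hdvd : minpoly K (algebraMap R L s * x) ∣
        (minpoly K x).scaleRoots (algebraMap R K s) := by
      refine minpoly.dvd K _ ?_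
      rw [hsL]
      exact scaleRoots_aeval_eq_zero (minpoly.aeval K x)
    refine (eq_of_monic_of_dvd_of_natDegree_le (minpoly.monic hyK)
      ((monic_scaleRoots_iff _).mpr (minpoly.monic hxK)) hdvd ?_).symm
    rw [natDegree_scaleRoots]
    have hx : x ∈ IntermediateField.adjoin K ({algebraMap R L s * x} : Set L) := by
      have h := mul_mem
        (IntermediateField.algebraMap_mem (IntermediateField.adjoin K
          ({algebraMap R L s * x} : Set L)) (algebraMap R K s)⁻¹)
        (IntermediateField.mem_adjoin_simple_self K (algebraMap R L s * x))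
      simpa [hsL, ← mul_assoc, inv_mul_cancel₀ ((map_ne_zero (algebraMap K L)).mpr hs0)] using h
    rw [← IntermediateField.adjoin.finrank hyK, ← IntermediateField.adjoin.finrank hxK]
    exact IntermediateField.finrank_le_of_le_right (IntermediateField.adjoin_simple_le_iff.mpr hx)
  have h2 : minpoly K (algebraMap R L s * x) =
      (minpoly R (algebraMap R L s * x)).map (algebraMap R K) :=
    minpoly.isIntegrallyClosed_eq_field_fractions' K hsx
  refine ⟨(minpoly R (algebraMap R L s * x)).coeff i, ?_⟩
  have := congrArg (fun p : K[X] => p.coeff i) (key.symm.trans h2)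
  simp only [coeff_scaleRoots, coeff_map] at this
  rw [← this, mul_comm]

include K in
/-- The key depth-two statement: if `a * x` and `ϖ * x` are integral and `ϖ` is a prime not
dividing `a`, then `x` is integral. -/
theorem isIntegral_of_mul_of_mul {ϖ a : R} (hϖ : Prime ϖ) (ha : ¬ ϖ ∣ a) {x : L}
    (hax : IsIntegral R (algebraMap R L a * x)) (hwx : IsIntegral R (algebraMap R L ϖ * x)) :
    IsIntegral R x := by
  have ha0 : a ≠ 0 := fun h => ha (h ▸ dvd_zero ϖ)
  have hxK : IsIntegral K x := Algebra.IsIntegral.isIntegral x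
  have hlift : minpoly K x ∈ Polynomial.lifts (algebraMap R K) := by
    rw [lifts_iff_coeff_lifts]
    intro i
    by_cases hi : i ≤ (minpoly K x).natDegree
    · exact mem_range_of_pow_mul_mem hϖ ha (pow_mul_coeff_minpoly_mem K ha0 hax i hi)
        (pow_mul_coeff_minpoly_mem K hϖ.ne_zero hwx i hi)
    · exact ⟨0, by rw [map_zero, coeff_eq_zero_of_natDegree_lt (not_le.mp hi)]⟩
  obtain ⟨p, hp, -, hmon⟩ := lifts_and_natDegree_eq_and_monic hlift (minpoly.monic hxK)
  refine ⟨p, hmon, ?_⟩
  rw [← aeval_def, ← aeval_map_algebraMap K, hp, minpoly.aeval]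

variable (L) [Algebra.IsSeparable K L] [IsNoetherianRing R]
  (B : Type*) [CommRing B] [Algebra R B] [Algebra B L] [IsScalarTower R B L]
  [IsIntegralClosure B R L]

/-- The integral closure is free over `R`, when `ϖ` is a prime of `R` in the Jacobson radical
with principal ideal quotient. -/
theorem exists_basis {ϖ : R} (hϖ : Prime ϖ) (hjac : ϖ ∈ Ideal.jacobson (⊥ : Ideal R))
    (hPID : IsPrincipalIdealRing (R ⧸ Ideal.span {ϖ})) :
    Nonempty (Module.Basis (Fin (Module.finrank K L)) R B) := by
  classical
  haveI : Module.IsTorsionFree R L := by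
    rw [Module.isTorsionFree_iff_algebraMap_injective]
    rw [IsScalarTower.algebraMap_eq R K L]
    exact (algebraMap K L).injective.comp (IsFractionRing.injective R K)
  haveI : Module.Finite R B := IsIntegralClosure.finite R K L B
  set P : Ideal R := Ideal.span {ϖ} with hP
  haveI : P.IsPrime := (Ideal.span_singleton_prime hϖ.ne_zero).mpr hϖ
  haveI : IsDomain (R ⧸ P) := Ideal.Quotient.isDomain P
  have hinj : Function.Injective (algebraMap B L) := IsIntegralClosure.algebraMap_injective B R L
  haveI : IsDomain B := hinj.isDomain _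
  have hNmem : ∀ x : B, x ∈ (P • ⊤ : Submodule R B) ↔ ∃ y, x = ϖ • y := by
    intro x
    rw [hP, Submodule.ideal_span_singleton_smul]
    constructor
    · intro h
      obtain ⟨y, -, rfl⟩ := (Submodule.mem_smul_pointwise_iff_exists _ _ _).mp h
      exact ⟨y, rfl⟩
    · rintro ⟨y, rfl⟩
      exact Submodule.smul_mem_pointwise_smul y ϖ ⊤ trivial
  have hsmul : ∀ (r : R) (z : B), algebraMap B L (r • z) = algebraMap R L r * algebraMap B L z := by
    intro r z
    rw [Algebra.smul_def, map_mul, ← IsScalarTower.algebraMap_apply]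
  haveI : Module.IsTorsionFree (R ⧸ P) (B ⧸ (P • ⊤ : Submodule R B)) := by
    refine Module.isTorsionFree_iff_smul_eq_zero.mpr ?_
    intro c m hcm
    obtain ⟨a, rfl⟩ := Ideal.Quotient.mk_surjective c
    obtain ⟨x, rfl⟩ := Submodule.Quotient.mk_surjective (P • ⊤ : Submodule R B) m
    by_cases ha : ϖ ∣ a
    · exact Or.inl (Ideal.Quotient.eq_zero_iff_mem.mpr (Ideal.mem_span_singleton.mpr ha))
    refine Or.inr ((Submodule.Quotient.mk_eq_zero (P • ⊤ : Submodule R B)).mpr ((hNmem x).mpr ?_))
    have hax : a • x ∈ (P • ⊤ : Submodule R B) := by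
      rw [← Submodule.Quotient.mk_eq_zero (P • ⊤ : Submodule R B)]
      simpa using hcm
    obtain ⟨y, hy⟩ := (hNmem _).mp hax
    have hw : algebraMap R L ϖ ≠ 0 := by
      rw [IsScalarTower.algebraMap_apply R K L]
      simpa using hϖ.ne_zero
    set x' : L := algebraMap B L x / algebraMap R L ϖ with hx'
    have h1 : IsIntegral R (algebraMap R L a * x') := by
      have : algebraMap R L a * x' = algebraMap B L y := by
        have e := congrArg (algebraMap B L) hy
        rw [hsmul, hsmul] at e
        rw [hx', mul_div_assoc', e, mul_div_cancel_left₀ _ hw]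
      rw [this]
      exact (IsIntegralClosure.isIntegral R L y).algebraMap
    have h2 : IsIntegral R (algebraMap R L ϖ * x') := by
      rw [hx', mul_div_cancel₀ _ hw]
      exact (IsIntegralClosure.isIntegral R L x).algebraMap
    obtain ⟨z, hz⟩ := (IsIntegralClosure.isIntegral_iff (A := B)).mp
      (isIntegral_of_mul_of_mul K hϖ ha h1 h2)
    refine ⟨z, hinj ?_⟩
    rw [hsmul, hz, hx', mul_div_cancel₀ _ hw]
  haveI : Module.Finite (R ⧸ P) (B ⧸ (P • ⊤ : Submodule R B)) := Module.Finite.of_restrictScalars_finite R _ _
  haveI := hPID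
  let ē := Module.Free.chooseBasis (R ⧸ P) (B ⧸ (P • ⊤ : Submodule R B))
  choose e he using fun i => Submodule.Quotient.mk_surjective (P • ⊤ : Submodule R B) (ē i)
  have hspan : ⊤ ≤ Submodule.span R (Set.range e) := by
    refine Submodule.le_of_le_smul_of_le_jacobson_bot Module.Finite.fg_top
      (show P ≤ Ideal.jacobson ⊥ from (Ideal.span_singleton_le_iff_mem _).mpr hjac) ?_
    intro x _
    choose c hc using fun i => Ideal.Quotient.mk_surjective (ē.repr (Submodule.Quotient.mk x) i)
    have hx : Submodule.Quotient.mk (p := (P • ⊤ : Submodule R B)) x = Submodule.Quotient.mk (∑ i, c i • e i) := by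
      conv_lhs => rw [← ē.sum_repr (Submodule.Quotient.mk x)]
      rw [← Submodule.mkQ_apply (P • ⊤ : Submodule R B) (∑ i, c i • e i), map_sum]
      refine Finset.sum_congr rfl fun i _ => ?_
      rw [map_smul, Submodule.mkQ_apply, he, ← hc]
      rfl
    have hd : x - ∑ i, c i • e i ∈ (P • ⊤ : Submodule R B) := (Submodule.Quotient.eq (P • ⊤ : Submodule R B)).mp hx
    have : x = ∑ i, c i • e i + (x - ∑ i, c i • e i) := by abel
    rw [this]
    exact Submodule.add_mem_sup (Submodule.sum_mem _ fun i _ => Submodule.smul_mem _ _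
      (Submodule.subset_span ⟨i, rfl⟩)) hd
  have hli : LinearIndependent R e := by
    rw [Fintype.linearIndependent_iff]
    intro g hg
    have step : ∀ (k : ℕ) (g : _ → R), ∑ i, g i • e i = 0 → ∀ i, ϖ ^ k ∣ g i := by
      intro k
      induction k with
      | zero => simp
      | succ k ih =>
        intro g hg i
        have h0 : ∀ i, ϖ ∣ g i := by
          intro i
          have : ∑ i, Ideal.Quotient.mk P (g i) • ē i = 0 := by
            have h := congrArg (Submodule.mkQ (P • ⊤ : Submodule R B)) hg
            rw [map_sum, map_zero] at h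
            rw [← h]
            refine Finset.sum_congr rfl fun i _ => ?_
            rw [map_smul, Submodule.mkQ_apply, he]
            rfl
          exact Ideal.mem_span_singleton.mp (Ideal.Quotient.eq_zero_iff_mem.mp
            (Fintype.linearIndependent_iff.mp ē.linearIndependent _ this i))
        choose g' hg' using h0
        have hg0 : ∑ i, g' i • e i = 0 := by
          have : ϖ • ∑ i, g' i • e i = 0 := by
            rw [Finset.smul_sum]
            simpa [smul_smul, ← hg'] using hg
          apply hinj
          have h := congrArg (algebraMap B L) this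
          rw [hsmul, map_zero, mul_eq_zero] at h
          rw [map_zero]
          refine h.resolve_left ?_
          rw [IsScalarTower.algebraMap_apply R K L]
          simpa using hϖ.ne_zero
        rw [pow_succ', hg' i]
        exact mul_dvd_mul_left ϖ (ih g' hg0 i)
    intro i
    by_contra hne
    obtain ⟨k, hk⟩ := FiniteMultiplicity.of_prime_left hϖ hne
    exact hk (step (k + 1) g hg i)
  let b := Module.Basis.mk hli hspan
  haveI : IsLocalization (Algebra.algebraMapSubmonoid B (nonZeroDivisors R)) L :=
    IsIntegralClosure.isLocalization_of_isSeparable R K L B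
  let bL := b.localizationLocalization K (nonZeroDivisors R) L
  exact ⟨b.reindex (Fintype.equivFinOfCardEq (Module.finrank_eq_card_basis bL).symm)⟩

end

end FLTA.Smooth.Purity
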