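import Fermat.Agent.Smooth.Purity.Defs
import Fermat.Agent.Smooth.Purity.Free
import Mathlib.RingTheory.Discriminant
import Mathlib.FieldTheory.IsAlgClosed.AlgebraicClosure
import Mathlib.FieldTheory.PrimitiveElement
import Mathlib.RingTheory.IntegralClosure.IntegrallyClosed
import Mathlib.RingTheory.PowerSeries.Inverse
import Mathlib.LinearAlgebra.Matrix.ToLinearEquiv

/-!
# The discriminant is prime to an unramified prime
-/

set_option autoImplicit false

noncomputable section

open Polynomial

namespace FLTA.Smooth.Purity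

/-- A finite family in a field of characteristic zero with vanishing power sums is zero. -/
theorem eq_zero_of_sum_pow_eq_zero {C ι : Type*} [Field C] [CharZero C] [Fintype ι] (β : ι → C)
    (h : ∀ m : ℕ, 1 ≤ m → ∑ i, β i ^ m = 0) (i₀ : ι) : β i₀ = 0 := by
  classical
  by_contra hv
  set W : Finset C := (Finset.univ.image β).filter (fun w => w ≠ β i₀ ∧ w ≠ 0) with hW
  set P : C[X] := X * ∏ w ∈ W, (X - Polynomial.C w) with hP
  have hsum : ∑ i, P.eval (β i) = 0 := by
    simp only [Polynomial.eval_eq_sum_range]
    rw [Finset.sum_comm]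
    refine Finset.sum_eq_zero fun m _ => ?_
    rcases Nat.eq_zero_or_pos m with rfl | hm
    · simp [hP]
    · rw [← Finset.mul_sum, h m hm, mul_zero]
  have hval : ∀ i, P.eval (β i) = if β i = β i₀ then P.eval (β i₀) else 0 := by
    intro i
    split_ifs with he
    · rw [he]
    · rw [hP, eval_mul, eval_X, eval_prod]
      by_cases h0 : β i = 0
      · rw [h0, zero_mul]
      · rw [Finset.prod_eq_zero (i := β i) (by simp [hW, he, h0]) (by simp), mul_zero]
  rw [Finset.sum_congr rfl (fun i _ => hval i), ← Finset.sum_filter, Finset.sum_const,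
    nsmul_eq_mul, mul_eq_zero, Nat.cast_eq_zero, Finset.card_eq_zero] at hsum
  rcases hsum with hsum | hsum
  · exact Finset.eq_empty_iff_forall_notMem.mp hsum i₀ (by simp)
  · rw [hP, eval_mul, eval_X, eval_prod] at hsum
    refine mul_ne_zero hv (Finset.prod_ne_zero_iff.mpr fun w hw => ?_) hsum
    simp only [hW, Finset.mem_filter] at hw
    simpa [sub_eq_zero] using (Ne.symm hw.2.1)

/-- If `f` generates the kernel of evaluation at `u = 0` and has a simple zero there, the order
of vanishing controls divisibility by `f`. -/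
theorem pow_dvd_of_pow_dvd_map {R C : Type*} [CommRing R] [Field C] (φ : R →+* PowerSeries C)
    {f : R} (hker : ∀ a, PowerSeries.constantCoeff (φ a) = 0 → f ∣ a)
    (hf0 : PowerSeries.constantCoeff (φ f) = 0) (hf1 : PowerSeries.coeff 1 (φ f) ≠ 0) :
    ∀ (j : ℕ) (a : R), φ f ^ j ∣ φ a → f ^ j ∣ a := by
  intro j
  induction j with
  | zero => simp
  | succ j ih =>
    intro a ha
    obtain ⟨a', rfl⟩ : f ∣ a := by
      refine hker a ?_
      obtain ⟨s, hs⟩ := ha
      rw [hs, map_mul, map_pow, hf0, zero_pow (Nat.succ_ne_zero j), zero_mul]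
    have hne : φ f ≠ 0 := fun h => hf1 (by rw [h, map_zero])
    rw [map_mul, pow_succ', mul_dvd_mul_iff_left hne] at ha
    rw [pow_succ']
    exact mul_dvd_mul_left f (ih a' ha)

section

variable {R : Type*} (K L : Type*) [CommRing R] [IsDomain R] [IsIntegrallyClosed R]
  [IsNoetherianRing R] [Field K] [Algebra R K] [IsFractionRing R K]
  [Field L] [Algebra K L] [Algebra R L] [IsScalarTower R K L]
  [FiniteDimensional K L] [Algebra.IsSeparable K L]
  {B : Type*} [CommRing B] [Algebra R B] [Algebra B L] [IsScalarTower R B L]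
  [IsIntegralClosure B R L]

/-- The trace of the integral closure is the trace of the field extension. -/
theorem algebraMap_trace {ι : Type*} [Finite ι] (e : Module.Basis ι R B) (b : B) :
    algebraMap R K (Algebra.trace R B b) = Algebra.trace K L (algebraMap B L b) := by
  haveI : IsLocalization (Algebra.algebraMapSubmonoid B (nonZeroDivisors R)) L :=
    IsIntegralClosure.isLocalization_of_isSeparable R K L B
  haveI : Module.Free R B := Module.Free.of_basis e
  haveI : Module.Finite R B := Module.Finite.of_basis e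
  exact (Algebra.trace_localization R (nonZeroDivisors R) b).symm

include K L in
/-- An unramified prime does not divide the discriminant. -/
theorem not_dvd_discr {f : R} (hf : SplitsUnramifiedAt K L f) {ι : Type*} [Fintype ι]
    [DecidableEq ι] (e : Module.Basis ι R B) : ¬ f ∣ Algebra.discr R e := by
  obtain ⟨C, hC, hC0, φ, σ, hσinj, hσ, hker, hf0, hf1⟩ := hf
  intro hdvd
  -- the quotient by `f` is a domain
  have hspan : Ideal.span {f} = RingHom.ker ((PowerSeries.constantCoeff (R := C)).comp φ) := by
    ext a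
    rw [RingHom.mem_ker, Ideal.mem_span_singleton]
    exact ⟨fun ⟨t, ht⟩ => by simp [ht, hf0], hker a⟩
  haveI hprime : (Ideal.span {f}).IsPrime := hspan ▸ RingHom.ker_isPrime _
  haveI : IsDomain (R ⧸ Ideal.span {f}) := Ideal.Quotient.isDomain _
  -- a kernel vector of the trace matrix modulo `f`
  have hdet : ((Algebra.traceMatrix R e).map (Ideal.Quotient.mk (Ideal.span {f}))).det = 0 := by
    rw [← RingHom.mapMatrix_apply, ← RingHom.map_det]
    exact Ideal.Quotient.eq_zero_iff_mem.mpr (Ideal.mem_span_singleton.mpr hdvd)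
  obtain ⟨c', hc'0, hc'⟩ := Matrix.exists_vecMul_eq_zero_iff.mpr hdet
  choose c hc using fun i => Ideal.Quotient.mk_surjective (c' i)
  set b : B := ∑ i, c i • e i with hb
  have htr : ∀ z : B, f ∣ Algebra.trace R B (b * z) := by
    have hj : ∀ j, f ∣ Algebra.trace R B (b * e j) := by
      intro j
      rw [← Ideal.mem_span_singleton, ← Ideal.Quotient.eq_zero_iff_mem]
      rw [hb, Finset.sum_mul, map_sum, map_sum]
      refine Eq.trans ?_ (congrFun hc' j)
      rw [Matrix.vecMul, dotProduct]
      refine Finset.sum_congr rfl fun i _ => ?_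
      rw [smul_mul_assoc, map_smul, smul_eq_mul, map_mul, hc, Matrix.map_apply,
        Algebra.traceMatrix_apply, Algebra.traceForm_apply]
    intro z
    rw [← e.sum_repr z, Finset.mul_sum, map_sum]
    refine Finset.dvd_sum fun j _ => ?_
    rw [mul_smul_comm, map_smul, smul_eq_mul]
    exact (hj j).mul_left _
  -- the embeddings
  have hφinj : Function.Injective φ := by
    rw [injective_iff_map_eq_zero]
    intro a ha
    by_contra hne
    obtain ⟨k, hk⟩ := FiniteMultiplicity.of_not_isUnit (a := f)
      (fun hu => hprime.ne_top (Ideal.span_singleton_eq_top.mpr hu)) hne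
    exact hk (pow_dvd_of_pow_dvd_map φ hker hf0 hf1 (k + 1) a (ha ▸ dvd_zero _))
  let J : PowerSeries C →+* LaurentSeries C := HahnSeries.ofPowerSeries ℤ C
  have hJ : Function.Injective J := HahnSeries.ofPowerSeries_injective
  let ψK : K →+* LaurentSeries C := IsFractionRing.lift (g := J.comp φ) (hJ.comp hφinj)
  have hψ : ∀ r, ψK (algebraMap R K r) = J (φ r) := fun r =>
    IsFractionRing.lift_algebraMap _ r
  have hσK : ∀ k a, σ k (algebraMap K L a) = ψK a := by
    intro k
    refine RingHom.congr_fun (f := (σ k).comp (algebraMap K L)) (g := ψK) ?_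
    refine IsLocalization.ringHom_ext (nonZeroDivisors R) (RingHom.ext fun r => ?_)
    simp only [RingHom.comp_apply, hψ, ← IsScalarTower.algebraMap_apply]
    exact hσ k r
  let Ω := AlgebraicClosure (LaurentSeries C)
  let emb : LaurentSeries C →+* Ω := algebraMap _ _
  letI : Algebra K Ω := (emb.comp ψK).toAlgebra
  let σ' : Fin (Module.finrank K L) → (L →ₐ[K] Ω) := fun k =>
    { emb.comp (σ k) with
      commutes' := fun a => by
        show emb (σ k (algebraMap K L a)) = algebraMap K Ω a
        rw [hσK]; rfl }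
  have hσ'inj : Function.Injective σ' := by
    intro k k' h
    refine hσinj (RingHom.ext fun x => emb.injective ?_)
    exact congrArg (fun g : L →ₐ[K] Ω => g x) h
  have hσ'bij : Function.Bijective σ' :=
    (Fintype.bijective_iff_injective_and_card σ').mpr
      ⟨hσ'inj, by rw [Fintype.card_fin, AlgHom.card K L Ω]⟩
  -- integral elements go to power series
  have hint : ∀ k (x : L), IsIntegral R x → ∃ y, J y = σ k x := by
    intro k x ⟨p, hp, hpx⟩
    have : IsIntegral (PowerSeries C) (σ k x) := by
      refine ⟨p.map φ, hp.map _, ?_⟩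
      rw [eval₂_map, show (algebraMap (PowerSeries C) (LaurentSeries C)).comp φ =
        (σ k).comp (algebraMap R L) from RingHom.ext fun r => (hσ k r).symm,
        ← hom_eval₂, hpx, map_zero]
    exact IsIntegrallyClosed.isIntegral_iff.mp this
  choose y hy using fun k => hint k _ (IsIntegralClosure.isIntegral R L b).algebraMap
  have htrace : ∀ x : L, ψK (Algebra.trace K L x) = ∑ k, σ k x := by
    intro x
    apply emb.injective
    rw [map_sum]
    change algebraMap K Ω (Algebra.trace K L x) = _
    refine (trace_eq_sum_embeddings Ω (x := x)).trans ?_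
    exact (Function.Bijective.sum_comp hσ'bij fun g => g x).symm
  have hy0 : ∀ k, PowerSeries.constantCoeff (y k) = 0 := by
    refine eq_zero_of_sum_pow_eq_zero (fun k => PowerSeries.constantCoeff (y k)) fun m hm => ?_
    obtain ⟨m, rfl⟩ := Nat.exists_eq_add_of_le' hm
    have h1 : J (φ (Algebra.trace R B (b ^ (m + 1)))) = J (∑ k, y k ^ (m + 1)) := by
      rw [← hψ, algebraMap_trace K L e, htrace, map_sum]
      exact Finset.sum_congr rfl fun k _ => by rw [map_pow, map_pow, map_pow, hy]
    obtain ⟨t, ht⟩ := htr (b ^ m)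
    rw [← pow_succ'] at ht
    have h2 := congrArg (PowerSeries.constantCoeff (R := C)) (hJ h1)
    rw [ht, map_mul, map_mul, hf0, zero_mul, map_sum] at h2
    simpa only [map_pow] using h2.symm
  -- hence `b / f` is integral
  obtain ⟨w, hw⟩ := PowerSeries.X_dvd_iff.mpr hf0
  have hwu : IsUnit w := by
    rw [PowerSeries.isUnit_iff_constantCoeff, isUnit_iff_ne_zero]
    intro h
    apply hf1
    rw [hw, show (1 : ℕ) = 0 + 1 from rfl, PowerSeries.coeff_succ_X_mul]
    simpa using h
  have hdiv : ∀ k, ∃ v, y k = φ f * v := by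
    intro k
    obtain ⟨v, hv⟩ := PowerSeries.X_dvd_iff.mpr (hy0 k)
    obtain ⟨w', hw'⟩ := hwu.exists_right_inv
    exact ⟨w' * v, by rw [hv, hw, mul_assoc, ← mul_assoc w, hw', one_mul]⟩
  choose v hv using hdiv
  have hfne : f ≠ 0 := fun h => hf1 (by rw [h, map_zero, map_zero])
  have hfL : algebraMap R L f ≠ 0 := by
    rw [IsScalarTower.algebraMap_apply R K L]; simpa using hfne
  set z : L := algebraMap B L b / algebraMap R L f with hz
  have hσz : ∀ k, σ k z = J (v k) := by
    intro k
    rw [hz, map_div₀, hσ, ← hy, hv, map_mul]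
    exact mul_div_cancel_left₀ _ ((map_ne_zero_iff J hJ).mpr fun h => hf1 (by rw [h, map_zero]))
  have hzK : IsIntegral K z := Algebra.IsIntegral.isIntegral z
  have hlifts : (minpoly K z).map (algebraMap K Ω) ∈ Polynomial.lifts (emb.comp J) := by
    rw [(IsAlgClosed.splits ((minpoly K z).map (algebraMap K Ω))).eq_prod_roots_of_monic
      ((minpoly.monic hzK).map _)]
    refine multiset_prod_mem _ fun q hq => ?_
    obtain ⟨r, hr, rfl⟩ := Multiset.mem_map.mp hq
    have hr' : r ∈ (minpoly K z).rootSet Ω := by
      rw [Polynomial.mem_rootSet]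
      exact ⟨minpoly.ne_zero hzK, by
        rw [Polynomial.mem_roots ((minpoly.monic hzK).map _).ne_zero, IsRoot, eval_map] at hr
        exact hr⟩
    rw [← Algebra.IsAlgebraic.range_eval_eq_rootSet_minpoly] at hr'
    obtain ⟨g, rfl⟩ := hr'
    obtain ⟨k, rfl⟩ := hσ'bij.2 g
    refine ⟨X - Polynomial.C (v k), ?_⟩
    simp only [coe_mapRingHom, Polynomial.map_sub, map_X, map_C, RingHom.comp_apply]
    rw [← hσz]
    rfl
  have hz' : IsIntegral R z := by
    have hfz : IsIntegral R (algebraMap R L f * z) := by
      rw [hz, mul_div_cancel₀ _ hfL]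
      exact (IsIntegralClosure.isIntegral R L b).algebraMap
    have hl : minpoly K z ∈ Polynomial.lifts (algebraMap R K) := by
      rw [lifts_iff_coeff_lifts]
      intro i
      by_cases hi : i ≤ (minpoly K z).natDegree
      · obtain ⟨r, hr⟩ := pow_mul_coeff_minpoly_mem K hfne hfz i hi
        obtain ⟨s, hs⟩ := (lifts_iff_coeff_lifts _).mp hlifts i
        rw [coeff_map] at hs
        have hs' : ψK ((minpoly K z).coeff i) = J s := emb.injective hs.symm
        have hr' : φ r = φ f ^ ((minpoly K z).natDegree - i) * s := by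
          apply hJ
          rw [← hψ, hr, map_mul, map_mul, map_pow, map_pow, hψ, hs']
        obtain ⟨t, rfl⟩ := pow_dvd_of_pow_dvd_map φ hker hf0 hf1 _ r ⟨s, hr'⟩
        refine ⟨t, mul_left_cancel₀ (pow_ne_zero _ (show algebraMap R K f ≠ 0 by simpa using hfne))
          (a := algebraMap R K f ^ ((minpoly K z).natDegree - i)) ?_⟩
        rw [← hr, map_mul, map_pow]
      · exact ⟨0, by rw [map_zero, coeff_eq_zero_of_natDegree_lt (not_le.mp hi)]⟩
    obtain ⟨p, hp, -, hmon⟩ := lifts_and_natDegree_eq_and_monic hl (minpoly.monic hzK)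
    refine ⟨p, hmon, ?_⟩
    rw [← aeval_def, ← aeval_map_algebraMap K, hp, minpoly.aeval]
  obtain ⟨b', hb'⟩ := (IsIntegralClosure.isIntegral_iff (A := B)).mp hz'
  have hbf : b = f • b' := by
    apply IsIntegralClosure.algebraMap_injective B R L
    rw [Algebra.smul_def, map_mul, ← IsScalarTower.algebraMap_apply, hb', hz,
      mul_div_cancel₀ _ hfL]
  apply hc'0
  funext i
  have hci : c i = f * e.repr b' i := by
    have h1 : e.repr b i = c i := by rw [hb, e.repr_sum_self]
    rw [← h1, hbf, map_smul, Finsupp.smul_apply, smul_eq_mul]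
  rw [← hc i, hci, Pi.zero_apply, Ideal.Quotient.eq_zero_iff_mem, Ideal.mem_span_singleton]
  exact dvd_mul_right f _

end

end FLTA.Smooth.Purity
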