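import Fermat.Agent.Smooth.Purity.Free
import Fermat.Agent.Smooth.Purity.Unramified
import Mathlib.RingTheory.Discriminant
import Mathlib.RingTheory.Norm.Basic
import Mathlib.FieldTheory.IntermediateField.Adjoin.Basic
import Mathlib.RingTheory.Nilpotent.Basic

/-!
# The discriminant is prime to `ϖ` when a generator stays separable modulo `ϖ`
-/

set_option autoImplicit false

noncomputable section

open Polynomial

namespace FLTA.Smooth.Purity

section

variable {R : Type*} (K L : Type*) [CommRing R] [IsDomain R] [IsIntegrallyClosed R]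
  [IsNoetherianRing R] [Field K] [Algebra R K] [IsFractionRing R K]
  [Field L] [Algebra K L] [Algebra R L] [IsScalarTower R K L]
  [FiniteDimensional K L] [Algebra.IsSeparable K L]
  {B : Type*} [CommRing B] [Algebra R B] [Algebra B L] [IsScalarTower R B L]
  [IsIntegralClosure B R L]

include K L in
/-- If a generator of `L` is separable modulo `ϖ`, then `ϖ` does not divide the discriminant. -/
theorem not_dvd_discr_of_separable {ϖ : R} (hϖ : Prime ϖ)
    (hsep : ∃ (y : L) (Q b : R[X]) (c : R), IntermediateField.adjoin K ({y} : Set L) = ⊤ ∧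
      Q.Monic ∧ aeval y Q = 0 ∧ ¬ ϖ ∣ c ∧ ∃ a : R[X], C ϖ ∣ a * Q + b * derivative Q - C c)
    (e : Module.Basis (Fin (Module.finrank K L)) R B) : ¬ ϖ ∣ Algebra.discr R e := by
  classical
  obtain ⟨y, Q, b, c, htop, hQ, hy, hc, a, W, hW⟩ := hsep
  intro hdvd
  haveI : Module.IsTorsionFree R L := by
    rw [Module.isTorsionFree_iff_algebraMap_injective, IsScalarTower.algebraMap_eq R K L]
    exact (algebraMap K L).injective.comp (IsFractionRing.injective R K)
  have hinj : Function.Injective (algebraMap B L) := IsIntegralClosure.algebraMap_injective B R L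
  have hyR : IsIntegral R y := ⟨Q, hQ, hy⟩
  have hyK : IsIntegral K y := Algebra.IsIntegral.isIntegral y
  obtain ⟨yB, hyB⟩ := (IsIntegralClosure.isIntegral_iff (A := B)).mp hyR
  have haev : ∀ q : R[X], algebraMap B L (aeval yB q) = aeval y q := by
    intro q
    rw [← aeval_algebraMap_apply, hyB]
  set p : R[X] := minpoly R y with hp
  obtain ⟨T, hT⟩ := minpoly.isIntegrallyClosed_dvd hyR hy
  -- the Bezout relation at `yB`
  have hQ0 : aeval yB Q = 0 := hinj (by rw [haev, hy, map_zero])
  have hp0 : aeval yB p = 0 := hinj (by rw [haev, hp, minpoly.aeval, map_zero])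
  have hrel : aeval yB (derivative p) * aeval yB (T * b) =
      algebraMap R B c + algebraMap R B ϖ * aeval yB W := by
    have h1 := congrArg (aeval yB) hW
    rw [map_sub, map_add, map_mul, map_mul, hQ0, mul_zero, zero_add, aeval_C, map_mul, aeval_C]
      at h1
    rw [← h1, hT, derivative_mul, map_add, map_mul, map_mul, map_mul, hp0, zero_mul, add_zero]
    ring
  -- its norm
  have hnorm : ϖ ∣ Algebra.norm R (algebraMap R B c + algebraMap R B ϖ * aeval yB W) -
      c ^ Module.finrank K L := by
    rw [Algebra.norm_eq_matrix_det e, map_add, map_mul, AlgHom.commutes, AlgHom.commutes,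
      ← Ideal.mem_span_singleton, ← Ideal.Quotient.eq, RingHom.map_det, RingHom.mapMatrix_apply,
      map_pow]
    have hm : ((algebraMap R (Matrix (Fin (Module.finrank K L)) (Fin (Module.finrank K L)) R) c +
        algebraMap R (Matrix (Fin (Module.finrank K L)) (Fin (Module.finrank K L)) R) ϖ *
          Algebra.leftMulMatrix e (aeval yB W)).map (Ideal.Quotient.mk (Ideal.span {ϖ}))) =
        Matrix.diagonal fun _ => Ideal.Quotient.mk (Ideal.span {ϖ}) c := by
      have h0 : Ideal.Quotient.mk (Ideal.span {ϖ}) ϖ = 0 :=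
        Ideal.Quotient.eq_zero_iff_mem.mpr (Ideal.mem_span_singleton_self ϖ)
      ext i j
      rw [← Algebra.smul_def]
      rcases eq_or_ne i j with rfl | hij
      · simp [Matrix.algebraMap_matrix_apply, h0]
      · simp [Matrix.algebraMap_matrix_apply, hij, h0]
    rw [hm, Matrix.det_diagonal, Finset.prod_const, Finset.card_univ, Fintype.card_fin]
  -- the power family
  let pb : PowerBasis K L := (IntermediateField.adjoin.powerBasis hyK).map
    ((IntermediateField.equivOfEq htop).trans IntermediateField.topEquiv)
  have hgen : pb.gen = y := by simp [pb]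
  have hdim : pb.dim = Module.finrank K L := pb.finrank.symm
  set v : Fin (Module.finrank K L) → B := fun i => yB ^ (i : ℕ) with hv
  have hLv : (fun i => algebraMap B L (v i)) = pb.basis ∘ (Fin.cast hdim.symm) := by
    funext i
    rw [hv, Function.comp_apply, pb.basis_eq_pow, map_pow, hyB, hgen]
    rfl
  have hdiscr : algebraMap R K (Algebra.discr R v) = Algebra.discr K pb.basis := by
    have h1 : algebraMap R K (Algebra.discr R v) =
        Algebra.discr K (fun i => algebraMap B L (v i)) := by
      rw [Algebra.discr_def, Algebra.discr_def, RingHom.map_det, RingHom.mapMatrix_apply]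
      congr 1
      ext i j
      rw [Matrix.map_apply, Algebra.traceMatrix_apply, Algebra.traceMatrix_apply,
        Algebra.traceForm_apply, Algebra.traceForm_apply, algebraMap_trace K L e, map_mul]
    rw [h1, hLv]
    exact Algebra.discr_reindex K pb.basis (finCongr hdim)
  have hdvdv : ϖ ∣ Algebra.discr R v := by
    rw [← e.toMatrix_map_vecMul (S := B) v, Algebra.discr_of_matrix_vecMul]
    exact hdvd.mul_left _
  -- compare
  haveI : IsLocalization (Algebra.algebraMapSubmonoid B (nonZeroDivisors R)) L :=
    IsIntegralClosure.isLocalization_of_isSeparable R K L B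
  haveI : Module.Free R B := Module.Free.of_basis e
  haveI : Module.Finite R B := Module.Finite.of_basis e
  have hN : ϖ ∣ Algebra.norm R (aeval yB (derivative p)) := by
    have h : algebraMap R K (Algebra.discr R v) = algebraMap R K
        ((-1) ^ (Module.finrank K L * (Module.finrank K L - 1) / 2) *
          Algebra.norm R (aeval yB (derivative p))) := by
      rw [hdiscr, Algebra.discr_powerBasis_eq_norm, map_mul, map_pow, map_neg, map_one, pb.finrank,
        ← Algebra.norm_localization R (nonZeroDivisors R) (Rₘ := K) (Sₘ := L), haev, hgen,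
        minpoly.isIntegrallyClosed_eq_field_fractions' K hyR, ← hp, derivative_map,
        aeval_map_algebraMap]
    rw [IsFractionRing.injective R K h] at hdvdv
    exact (hϖ.dvd_or_dvd hdvdv).resolve_left fun h1 =>
      hϖ.not_unit (isUnit_of_dvd_unit h1 (isUnit_one.neg.pow _))
  apply hc
  apply hϖ.dvd_of_dvd_pow (n := Module.finrank K L)
  have h2 : ϖ ∣ Algebra.norm R (algebraMap R B c + algebraMap R B ϖ * aeval yB W) := by
    rw [← hrel, map_mul]
    exact hN.mul_right _
  simpa using dvd_sub h2 hnorm

end

/-- Bezout relation modulo `ϖ` from separability over the fraction field of `R ⧸ (ϖ)`. -/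
theorem exists_bezout_of_separable {R : Type*} [CommRing R] {ϖ : R} {κ : Type*} [Field κ]
    [Algebra (R ⧸ Ideal.span {ϖ}) κ] [IsFractionRing (R ⧸ Ideal.span {ϖ}) κ] (Q : R[X])
    (hQ : (Q.map ((algebraMap (R ⧸ Ideal.span {ϖ}) κ).comp
      (Ideal.Quotient.mk (Ideal.span {ϖ})))).Separable) :
    ∃ (b : R[X]) (c : R), ¬ ϖ ∣ c ∧ ∃ a : R[X], C ϖ ∣ a * Q + b * derivative Q - C c := by
  haveI : Nontrivial (R ⧸ Ideal.span {ϖ}) := (algebraMap (R ⧸ Ideal.span {ϖ}) κ).domain_nontrivial
  set S := R ⧸ Ideal.span {ϖ}
  set q := Ideal.Quotient.mk (Ideal.span {ϖ})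
  obtain ⟨a', b', hab⟩ := hQ
  obtain ⟨d, hd⟩ := IsLocalization.integerNormalization_map_to_map (nonZeroDivisors S) a'
  obtain ⟨d', hd'⟩ := IsLocalization.integerNormalization_map_to_map (nonZeroDivisors S) b'
  obtain ⟨A, hA⟩ := Polynomial.map_surjective q Ideal.Quotient.mk_surjective
    (IsLocalization.integerNormalization (nonZeroDivisors S) a')
  obtain ⟨B, hB⟩ := Polynomial.map_surjective q Ideal.Quotient.mk_surjective
    (IsLocalization.integerNormalization (nonZeroDivisors S) b')
  obtain ⟨c₁, hc₁⟩ := Ideal.Quotient.mk_surjective (I := Ideal.span {ϖ}) (d : S)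
  obtain ⟨c₂, hc₂⟩ := Ideal.Quotient.mk_surjective (I := Ideal.span {ϖ}) (d' : S)
  refine ⟨C c₁ * B, c₁ * c₂, ?_, C c₂ * A, ?_⟩
  · intro h
    refine nonZeroDivisors.ne_zero (d * d').2 ?_
    rw [Submonoid.coe_mul, ← hc₁, ← hc₂, ← map_mul]
    exact Ideal.Quotient.eq_zero_iff_mem.mpr (Ideal.mem_span_singleton.mpr h)
  · rw [C_dvd_iff_dvd_coeff]
    intro i
    rw [← Ideal.mem_span_singleton, ← Ideal.Quotient.eq_zero_iff_mem]
    have hinj : Function.Injective (algebraMap S κ) := IsFractionRing.injective S κ
    apply hinj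
    have : ((C c₂ * A) * Q + (C c₁ * B) * derivative Q - C (c₁ * c₂)).map
        ((algebraMap S κ).comp q) = 0 := by
      rw [Polynomial.map_sub, Polynomial.map_add, Polynomial.map_mul, Polynomial.map_mul,
        Polynomial.map_mul, Polynomial.map_mul, ← derivative_map, map_C, map_C, map_C,
        ← Polynomial.map_map q (algebraMap S κ) A, ← Polynomial.map_map q (algebraMap S κ) B,
        hA, hB, hd, hd']
      simp only [RingHom.comp_apply, map_mul, q, hc₁, hc₂]
      simp only [Algebra.smul_def, Polynomial.algebraMap_apply]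
      linear_combination (C (algebraMap S κ d) * C (algebraMap S κ d')) * hab
    have h := congrArg (fun r : κ[X] => r.coeff i) this
    rw [coeff_map, coeff_zero] at h
    rw [map_zero]
    exact h

/-- Fibres over fields of an algebra with unit discriminant are reduced. -/
theorem isReduced_of_isUnit_discr {κ S ι : Type*} [Field κ] [CommRing S] [Algebra κ S]
    [Fintype ι] [DecidableEq ι] (e : Module.Basis ι κ S) (he : IsUnit (Algebra.discr κ e)) :
    IsReduced S := by
  refine ⟨fun x hx => ?_⟩
  have h : Matrix.vecMul (fun i => e.repr x i) (Algebra.traceMatrix κ e) = 0 := by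
    funext j
    have hn : IsNilpotent (x * e j) := (Commute.all _ _).isNilpotent_mul_right hx
    have h0 : Algebra.trace κ S (x * e j) = 0 :=
      (Algebra.isNilpotent_trace_of_isNilpotent hn).eq_zero
    rw [Pi.zero_apply, ← h0]
    conv_rhs => rw [← e.sum_repr x, Finset.sum_mul, map_sum]
    rw [Matrix.vecMul, dotProduct]
    refine Finset.sum_congr rfl fun i _ => ?_
    rw [smul_mul_assoc, map_smul, smul_eq_mul, Algebra.traceMatrix_apply, Algebra.traceForm_apply]
  have h2 : (fun i => e.repr x i) = 0 := by
    by_contra hne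
    exact he.ne_zero (Matrix.exists_vecMul_eq_zero_iff.mp ⟨_, hne, h⟩)
  exact e.ext_elem fun i => by rw [map_zero]; exact congrFun h2 i

end FLTA.Smooth.Purity
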