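import Fermat.Agent.Smooth.Purity.Defs
import Fermat.Agent.Smooth.Purity.Line
import Fermat.Agent.Smooth.Purity.Separable
import Mathlib.RingTheory.Discriminant
import Mathlib.RingTheory.Jacobson.Ideal
import Mathlib.FieldTheory.Separable
import Mathlib.RingTheory.Localization.FractionRing
import Mathlib.RingTheory.DedekindDomain.IntegralClosure
import Mathlib.FieldTheory.IntermediateField.Adjoin.Basic
import Mathlib.Analysis.Complex.Basic

/-!
# Purity of the branch locus over a regular base of dimension two

Let `R` be a Noetherian normal domain, `ϖ` a prime element in its Jacobson radical with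
`R ⧸ (ϖ)` a principal ideal domain, and `B` the integral closure of `R` in a separable extension
`L`. If a generator of `L` stays separable modulo `ϖ` and `L` is unramified above the primes not
containing `ϖ`, then `B` is free over `R` with unit discriminant, i.e. `B` is finite etale.
-/

set_option autoImplicit false

noncomputable section

open Polynomial

namespace FLTA.Smooth.Purity

section Abstract

variable {R K L B : Type*} [CommRing R] [IsDomain R] [IsIntegrallyClosed R] [IsNoetherianRing R]
  [Field K] [Algebra R K] [IsFractionRing R K]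
  [Field L] [Algebra K L] [Algebra R L] [IsScalarTower R K L]
  [FiniteDimensional K L] [Algebra.IsSeparable K L]
  [CommRing B] [Algebra R B] [Algebra B L] [IsScalarTower R B L] [IsIntegralClosure B R L]

variable (K L) in
/-- **Purity**, abstract form. -/
theorem exists_basis_isUnit_discr {ϖ : R} (hϖ : Prime ϖ)
    (hjac : ϖ ∈ Ideal.jacobson (⊥ : Ideal R))
    (hPID : IsPrincipalIdealRing (R ⧸ Ideal.span {ϖ}))
    (hsep : ∃ (y : L) (Q b : R[X]) (c : R), IntermediateField.adjoin K ({y} : Set L) = ⊤ ∧
      Q.Monic ∧ aeval y Q = 0 ∧ ¬ ϖ ∣ c ∧ ∃ a : R[X], C ϖ ∣ a * Q + b * derivative Q - C c)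
    (hsplit : ∀ a : R, ¬ ϖ ∣ a → ¬ IsUnit a →
      ∃ f : R, f ∣ a ∧ SplitsUnramifiedAt K L f) :
    ∃ e : Module.Basis (Fin (Module.finrank K L)) R B, IsUnit (Algebra.discr R e) := by
  classical
  obtain ⟨e⟩ := exists_basis K L B hϖ hjac hPID
  refine ⟨e, ?_⟩
  by_contra hu
  obtain ⟨f, hfd, hf⟩ := hsplit _ (not_dvd_discr_of_separable K L hϖ hsep e) hu
  exact not_dvd_discr K L hf e hfd

end Abstract

section BaseLine

variable {O K L B R : Type*} [CommRing O] [IsDomain O] [IsPrincipalIdealRing O]
  [CommRing R] [IsDomain R] [Algebra O[X] R]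
  [Field K] [Algebra R K] [IsFractionRing R K]
  [Field L] [Algebra K L] [Algebra R L] [IsScalarTower R K L]
  [FiniteDimensional K L] [Algebra.IsSeparable K L]
  [CommRing B] [Algebra R B] [Algebra B L] [IsScalarTower R B L] [IsIntegralClosure B R L]

variable (K L) in
/-- **Purity over a line**: `R` is `O[X]` localised at the elements reducing to units of
`k[X, 1/h]`. The hypothesis over the generic fibre: above every complex point `x₀` with
`h x₀ ≠ 0` there are `[L : K]` distinct embeddings of `L` in `ℂ((u))` with `X ↦ x₀ + u`. -/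
theorem exists_basis_isUnit_discr_line {ϖ : O} (hϖ : Prime ϖ) {h : O[X]} (hh : ¬ C ϖ ∣ h)
    [IsLocalization (fibreSubmonoid ϖ h) R] (ι : O →+* ℂ) (hι : Function.Injective ι)
    (hsep : ∃ (y : L) (Q b : R[X]) (c : R), IntermediateField.adjoin K ({y} : Set L) = ⊤ ∧
      Q.Monic ∧ aeval y Q = 0 ∧ ¬ algebraMap O[X] R (C ϖ) ∣ c ∧
      ∃ a : R[X], C (algebraMap O[X] R (C ϖ)) ∣ a * Q + b * derivative Q - C c)
    (hemb : ∀ x₀ : ℂ, h.eval₂ ι x₀ ≠ 0 →
      ∃ σ : Fin (Module.finrank K L) → (L →+* LaurentSeries ℂ), Function.Injective σ ∧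
        ∀ k (p : O[X]), σ k (algebraMap R L (algebraMap O[X] R p)) =
          p.eval₂ ((HahnSeries.C : ℂ →+* LaurentSeries ℂ).comp ι)
            (HahnSeries.C x₀ + HahnSeries.single 1 1)) :
    ∃ e : Module.Basis (Fin (Module.finrank K L)) R B, IsUnit (Algebra.discr R e) := by
  classical
  haveI : IsNoetherianRing R :=
    IsLocalization.isNoetherianRing (fibreSubmonoid ϖ h) R inferInstance
  haveI : IsIntegrallyClosed R :=
    isIntegrallyClosed_of_isLocalization R (fibreSubmonoid ϖ h)
      (fibreSubmonoid_le_nonZeroDivisors hϖ hh)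
  exact exists_basis_isUnit_discr K L (prime_algebraMap_C hϖ hh) (mem_jacobson_algebraMap_C h)
    (isPrincipalIdealRing_quotient h hϖ) hsep
    (fun a ha hau => exists_splitsUnramifiedAt hϖ ι hι hemb ha hau)

end BaseLine

end FLTA.Smooth.Purity
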