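import Mathlib.RingTheory.LaurentSeries
import Mathlib.RingTheory.PowerSeries.Basic
import Mathlib.LinearAlgebra.FiniteDimensional.Defs

/-!
# Unramified splitting data

`SplitsUnramifiedAt K L f`: there is a characteristic zero field `C` and a map `R → C⟦u⟧` under
which the prime `f` has a simple zero and is the kernel of evaluation at `u = 0`, which extends to
`[L : K]` distinct embeddings of `L` in `C((u))`.
-/

set_option autoImplicit false

noncomputable section

namespace FLTA.Smooth.Purity

variable {R : Type*} [CommRing R]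

/-- `L / K` splits completely in unramified power series above the prime `f` of `R`. -/
def SplitsUnramifiedAt (K L : Type*) [Field K] [Field L] [Algebra K L] [Algebra R L] (f : R) :
    Prop :=
  ∃ (C : Type) (_ : Field C) (_ : CharZero C) (φ : R →+* PowerSeries C)
    (σ : Fin (Module.finrank K L) → (L →+* LaurentSeries C)),
    Function.Injective σ ∧
    (∀ k r, σ k (algebraMap R L r) = HahnSeries.ofPowerSeries ℤ C (φ r)) ∧
    (∀ a, PowerSeries.constantCoeff (φ a) = 0 → f ∣ a) ∧
    PowerSeries.constantCoeff (φ f) = 0 ∧ PowerSeries.coeff 1 (φ f) ≠ 0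

/-- The elements of `O[X]` which reduce, modulo `ϖ`, to a nonzero constant times a power of `h`. -/
def fibreSubmonoid {O : Type*} [CommRing O] (ϖ : O) (h : Polynomial O) :
    Submonoid (Polynomial O) where
  carrier := {s | ∃ (c : O) (i : ℕ), IsUnit c ∧ Polynomial.C ϖ ∣ s - Polynomial.C c * h ^ i}
  one_mem' := ⟨1, 0, isUnit_one, by simp⟩
  mul_mem' := by
    rintro a b ⟨c, i, hc, u, hu⟩ ⟨d, j, hd, v, hv⟩
    refine ⟨c * d, i + j, hc.mul hd, u * b + Polynomial.C c * h ^ i * v, ?_⟩
    rw [map_mul, pow_add]
    linear_combination b * hu + Polynomial.C c * h ^ i * hv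

end FLTA.Smooth.Purity
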