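import Mathlib

/-!
# Taylor series, roots and substitutions of complex power series
-/

set_option autoImplicit false

noncomputable section

open PowerSeries Filter Topology

namespace FLTA.Smooth.Purity

/-- A power series with nonzero constant term has an `e`-th root. -/
theorem exists_root (e : ℕ) (he : e ≠ 0) (U : ℂ⟦X⟧) (hU : constantCoeff U ≠ 0) :
    ∃ V : ℂ⟦X⟧, constantCoeff V ≠ 0 ∧ V ^ e = U := by
  obtain ⟨c, hc⟩ := IsAlgClosed.exists_pow_nat_eq (constantCoeff U) (Nat.pos_of_ne_zero he)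
  set t : ℂ⟦X⟧ := C (constantCoeff U)⁻¹ * U - 1 with ht
  have ht0 : constantCoeff t = 0 := by simp [ht, hU]
  have hts : HasSubst t := HasSubst.of_constantCoeff_zero' ht0
  set B : ℂ⟦X⟧ := PowerSeries.binomialSeries ℂ ((e : ℂ)⁻¹) with hB
  have hpow : ∀ n : ℕ, B ^ n = PowerSeries.binomialSeries ℂ ((n : ℂ) * (e : ℂ)⁻¹) := by
    intro n
    induction n with
    | zero => simp [PowerSeries.binomialSeries_zero]
    | succ n ih => rw [pow_succ, ih, hB, ← binomialSeries_add]; push_cast; ring_nf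
  have he' : (e : ℂ) ≠ 0 := Nat.cast_ne_zero.mpr he
  have hBe : B ^ e = 1 + X := by
    have h := binomialSeries_nat (R := ℂ) (A := ℂ) 1
    rw [pow_one, Nat.cast_one] at h
    rw [hpow, mul_inv_cancel₀ he', h]
  refine ⟨C c * subst t B, ?_, ?_⟩
  · have hc0 : c ≠ 0 := fun h => hU (by rw [← hc, h, zero_pow he])
    have h1 : constantCoeff (subst t B) = 1 := by
      obtain ⟨B', hB'⟩ : X ∣ B - 1 := X_dvd_iff.mpr (by simp [hB])
      have h2 : B = 1 + X * B' := by rw [← hB']; ring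
      rw [h2, ← coe_substAlgHom hts]
      simp [substAlgHom_X, ht0]
    simp [h1, hc0]
  · rw [mul_pow, ← map_pow, hc, ← subst_pow hts, hBe, ← coe_substAlgHom hts]
    simp only [map_add, map_one, substAlgHom_X, ht]
    rw [show (C (constantCoeff U)⁻¹ * U - 1 : ℂ⟦X⟧) = C (constantCoeff U)⁻¹ * U - 1 from rfl,
      add_sub_cancel, ← mul_assoc, ← map_mul, mul_inv_cancel₀ hU, map_one, one_mul]

/-- If `e ∣ m`, the series `X ^ m * V` is `X ^ e * U` composed with some series `S`. -/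
theorem exists_subst_eq {e m : ℕ} (he : e ≠ 0) (hm : m ≠ 0) (hem : e ∣ m) (U V : ℂ⟦X⟧)
    (hU : constantCoeff U ≠ 0) (hV : constantCoeff V ≠ 0) :
    ∃ S : ℂ⟦X⟧, constantCoeff S = 0 ∧ S ≠ 0 ∧ subst S (X ^ e * U) = X ^ m * V := by
  obtain ⟨A, hA0, hA⟩ := exists_root e he U hU
  obtain ⟨B, hB0, hB⟩ := exists_root e he V hV
  obtain ⟨k, rfl⟩ := hem
  have hk : k ≠ 0 := fun h => hm (by simp [h])
  set W : ℂ⟦X⟧ := X * A with hW
  have hW0 : constantCoeff W = 0 := by simp [hW]
  have hW1 : coeff 1 W = constantCoeff A := by simp [hW]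
  haveI : Invertible (coeff 1 W) := invertibleOfNonzero (hW1 ▸ hA0)
  have hT : constantCoeff (X ^ k * B) = 0 := by simp [hk]
  have hTs : HasSubst (X ^ k * B) := HasSubst.of_constantCoeff_zero' hT
  refine ⟨subst (X ^ k * B) (substInv W), ?_, ?_, ?_⟩
  · exact constantCoeff_subst_eq_zero hT _ (constantCoeff_substInv W)
  · intro h0
    have hcomp : subst (subst (X ^ k * B) (substInv W)) W = X ^ k * B := by
      rw [← subst_comp_subst_apply (HasSubst.substInv W) hTs, subst_substInv_right W hW0, subst_X hTs]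
    rw [h0, subst_zero_of_constantCoeff_zero hW0] at hcomp
    rcases mul_eq_zero.mp hcomp.symm with h | h
    · exact pow_ne_zero _ X_ne_zero h
    · exact hB0 (by simp [h])
  · have hSs : HasSubst (subst (X ^ k * B) (substInv W)) :=
      HasSubst.of_constantCoeff_zero' (constantCoeff_subst_eq_zero hT _ (constantCoeff_substInv W))
    rw [← hA, ← mul_pow, ← hW, subst_pow hSs,
      ← subst_comp_subst_apply (HasSubst.substInv W) hTs, subst_substInv_right W hW0, subst_X hTs,
      mul_pow, hB, ← pow_mul, mul_comm k e]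

/-- Substitution of a nonzero series without constant term is injective. -/
theorem subst_injective {S : ℂ⟦X⟧} (hS : constantCoeff S = 0) (hS0 : S ≠ 0) :
    Function.Injective (substAlgHom (HasSubst.of_constantCoeff_zero' hS) : ℂ⟦X⟧ →ₐ[ℂ] ℂ⟦X⟧) := by
  rw [injective_iff_map_eq_zero]
  intro f hf
  by_contra hne
  obtain ⟨n, hn⟩ := ENat.ne_top_iff_exists.mp (mt order_eq_top.mp hne)
  obtain ⟨g, hg⟩ : X ^ n ∣ f := X_pow_dvd_iff.mpr fun m hm =>
    coeff_of_lt_order m (hn ▸ (by exact_mod_cast hm))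
  have hg0 : constantCoeff g ≠ 0 := by
    have h1 := coeff_order hne
    rw [← hn, ENat.toNat_natCast] at h1
    intro h0
    apply h1
    rw [hg, coeff_X_pow_mul' g n n, if_pos le_rfl, Nat.sub_self, coeff_zero_eq_constantCoeff, h0]
  rw [hg, map_mul, map_pow, substAlgHom_X] at hf
  rcases mul_eq_zero.mp hf with h | h
  · exact pow_ne_zero n hS0 h
  · have := congrArg constantCoeff h
    rw [coe_substAlgHom, map_zero] at this
    obtain ⟨g', hg'⟩ : X ∣ g - C (constantCoeff g) := X_dvd_iff.mpr (by simp)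
    have h2 : g = C (constantCoeff g) + X * g' := by rw [← hg']; ring
    rw [h2, ← coe_substAlgHom (HasSubst.of_constantCoeff_zero' hS)] at this
    simp [substAlgHom_X, hS, ← PowerSeries.algebraMap_eq] at this
    exact hg0 this

/-! ### Taylor series -/

/-- The Taylor series of `f` at `z₀`. -/
def taylorAt (z₀ : ℂ) (f : ℂ → ℂ) : ℂ⟦X⟧ := mk fun n => iteratedDeriv n f z₀ / n.factorial

theorem coeff_taylorAt (z₀ : ℂ) (f : ℂ → ℂ) (n : ℕ) :
    coeff n (taylorAt z₀ f) = iteratedDeriv n f z₀ / n.factorial := coeff_mk _ _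

theorem constantCoeff_taylorAt (z₀ : ℂ) (f : ℂ → ℂ) :
    constantCoeff (taylorAt z₀ f) = f z₀ := by
  simp [← coeff_zero_eq_constantCoeff, coeff_taylorAt]

theorem taylorAt_congr {z₀ : ℂ} {f g : ℂ → ℂ} (h : f =ᶠ[𝓝 z₀] g) :
    taylorAt z₀ f = taylorAt z₀ g := by
  ext n
  rw [coeff_taylorAt, coeff_taylorAt, h.iteratedDeriv_eq n]

theorem taylorAt_const (z₀ c : ℂ) : taylorAt z₀ (fun _ => c) = C c := by
  ext n
  rw [coeff_taylorAt, iteratedDeriv_const, coeff_C]
  split <;> simp_all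

theorem taylorAt_add {z₀ : ℂ} {f g : ℂ → ℂ} (hf : AnalyticAt ℂ f z₀) (hg : AnalyticAt ℂ g z₀) :
    taylorAt z₀ (f + g) = taylorAt z₀ f + taylorAt z₀ g := by
  ext n
  rw [map_add, coeff_taylorAt, coeff_taylorAt, coeff_taylorAt,
    iteratedDeriv_add hf.contDiffAt hg.contDiffAt, add_div]

theorem taylorAt_mul {z₀ : ℂ} {f g : ℂ → ℂ} (hf : AnalyticAt ℂ f z₀) (hg : AnalyticAt ℂ g z₀) :
    taylorAt z₀ (f * g) = taylorAt z₀ f * taylorAt z₀ g := by
  ext n
  rw [coeff_taylorAt, iteratedDeriv_mul hf.contDiffAt hg.contDiffAt, coeff_mul,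
    Finset.Nat.sum_antidiagonal_eq_sum_range_succ_mk, Finset.sum_div]
  refine Finset.sum_congr rfl fun i hi => ?_
  have hi' : i ≤ n := Nat.lt_succ_iff.mp (Finset.mem_range.mp hi)
  have h0 : ∀ m : ℕ, (m.factorial : ℂ) ≠ 0 := fun m => Nat.cast_ne_zero.mpr m.factorial_ne_zero
  rw [coeff_taylorAt, coeff_taylorAt, Nat.cast_choose ℂ hi']
  have := h0 i; have := h0 (n - i); have := h0 n
  field_simp

theorem taylorAt_sub_self (z₀ : ℂ) : taylorAt z₀ (fun z => z - z₀) = X := by
  ext n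
  rw [coeff_taylorAt, coeff_X]
  rcases n with _ | n
  · simp
  · rw [iteratedDeriv_succ', show deriv (fun z => z - z₀) = fun _ => (1 : ℂ) from
      funext fun z => by simp, iteratedDeriv_const]
    rcases n with _ | n <;> simp

theorem taylorAt_pow_mul {z₀ : ℂ} (e : ℕ) {g : ℂ → ℂ} (hg : AnalyticAt ℂ g z₀) :
    taylorAt z₀ (fun z => (z - z₀) ^ e * g z) = X ^ e * taylorAt z₀ g := by
  have hlin : AnalyticAt ℂ (fun z => z - z₀) z₀ := by fun_prop
  induction e with
  | zero => simp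
  | succ e ih =>
    have : (fun z => (z - z₀) ^ (e + 1) * g z) =
        (fun z => z - z₀) * (fun z => (z - z₀) ^ e * g z) := by
      funext z; simp only [Pi.mul_apply]; ring
    rw [this, taylorAt_mul hlin (by fun_prop), ih, taylorAt_sub_self]; ring

/-- A series whose linear coefficient is nonzero and constant coefficient zero. -/
theorem exists_eq_X_mul {f : ℂ → ℂ} {z₀ : ℂ} (h0 : f z₀ = 0) (h1 : deriv f z₀ ≠ 0) :
    ∃ U : ℂ⟦X⟧, constantCoeff U ≠ 0 ∧ taylorAt z₀ f = X * U := by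
  obtain ⟨U, hU⟩ : X ∣ taylorAt z₀ f := X_dvd_iff.mpr (by rw [constantCoeff_taylorAt, h0])
  refine ⟨U, ?_, hU⟩
  have h := congrArg (coeff 1) hU
  rw [coeff_taylorAt, coeff_succ_X_mul, coeff_zero_eq_constantCoeff, iteratedDeriv_one] at h
  simpa [← h] using h1

end FLTA.Smooth.Purity
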